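import Mathlib

/-!
# P-EIS, lower bound via theta series, module TH6 (analysis), abstract core (helper19)

For a family of exponents `w : X → ℝ`, `w ≥ 0`, such that `∑ₓ exp (-t w x) < ∞` for all `t > 0`
(`h19th_Good w`), the "theta function" `Θ_w(z) = ∑ₓ exp (2πi w(x) z)` is holomorphic on `ℍ`,
bounded at `i∞`, satisfies `Θ_w(z + 1) = e(a) Θ_w(z)` if `w ≡ a mod 1`, and -- if `w` takes
values in `ℕ` -- has the `q`-expansion `∑ₙ r(n) qⁿ`, `r(n) = #{x | w x = n}`.
-/

set_option autoImplicit false

open Complex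
open scoped Real Manifold

noncomputable section

namespace Fermat.Agent.S16.Theta

variable {X : Type*}

/-- the exponent family `w` is nonnegative and Gaussian-summable. -/
def h19th_Good (w : X → ℝ) : Prop :=
  (∀ x, 0 ≤ w x) ∧ ∀ t : ℝ, 0 < t → Summable fun x => Real.exp (-t * w x)

/-- one term of the theta series, as a function on `ℂ`. -/
def h19th_term (w : X → ℝ) (x : X) (z : ℂ) : ℂ := cexp (2 * π * I * (w x : ℂ) * z)

/-- the theta function attached to the exponent family `w`. -/
def h19th_theta (w : X → ℝ) (z : UpperHalfPlane) : ℂ := ∑' x, h19th_term w x (z : ℂ)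

theorem h19th_norm_term (w : X → ℝ) (x : X) (z : ℂ) :
    ‖h19th_term w x z‖ = Real.exp (-(2 * π * z.im) * w x) := by
  rw [h19th_term, Complex.norm_exp]
  congr 1
  have : 2 * (π : ℂ) * I * (w x : ℂ) * z = ((2 * π * w x : ℝ) : ℂ) * (I * z) := by
    push_cast
    ring
  rw [this, Complex.re_ofReal_mul]
  simp only [mul_re, I_re, zero_mul, I_im, one_mul, zero_sub]
  ring

theorem h19th_norm_term_le {w : X → ℝ} (hw : ∀ x, 0 ≤ w x) (x : X) {z : ℂ} {δ : ℝ}
    (hz : δ ≤ z.im) : ‖h19th_term w x z‖ ≤ Real.exp (-(2 * π * δ) * w x) := by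
  rw [h19th_norm_term]
  apply Real.exp_le_exp.mpr
  have h1 : 2 * π * δ ≤ 2 * π * z.im := by
    have := Real.pi_pos
    nlinarith
  nlinarith [hw x]

theorem h19th_summable_term {w : X → ℝ} (hw : h19th_Good w) {z : ℂ} (hz : 0 < z.im) :
    Summable fun x => h19th_term w x z := by
  apply Summable.of_norm
  have h := hw.2 (2 * π * z.im) (by positivity)
  refine h.congr fun x => ?_
  rw [h19th_norm_term]

theorem h19th_hasSum {w : X → ℝ} (hw : h19th_Good w) (z : UpperHalfPlane) :
    HasSum (fun x => h19th_term w x (z : ℂ)) (h19th_theta w z) :=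
  (h19th_summable_term hw z.im_pos).hasSum

theorem h19th_differentiable_term (w : X → ℝ) (x : X) : Differentiable ℂ (h19th_term w x) := by
  unfold h19th_term
  fun_prop

/-- the theta function is holomorphic on the half plane `δ < im z`. -/
theorem h19th_differentiableOn {w : X → ℝ} (hw : h19th_Good w) {δ : ℝ} (hδ : 0 < δ) :
    DifferentiableOn ℂ (fun z : ℂ => ∑' x, h19th_term w x z) {z : ℂ | δ < z.im} := by
  refine differentiableOn_tsum_of_summable_norm (hw.2 (2 * π * δ) (by positivity))
    (fun x => (h19th_differentiable_term w x).differentiableOn)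
    (isOpen_lt continuous_const Complex.continuous_im) ?_
  intro x z hz
  exact h19th_norm_term_le hw.1 x (le_of_lt hz)

/-- the theta function is holomorphic on the upper half plane. -/
theorem h19th_differentiableOn_upper {w : X → ℝ} (hw : h19th_Good w) :
    DifferentiableOn ℂ (fun z : ℂ => ∑' x, h19th_term w x z) {z : ℂ | 0 < z.im} := by
  intro z hz
  have hz' : (0 : ℝ) < z.im := hz
  have hmem : z ∈ {z : ℂ | z.im / 2 < z.im} := by
    show z.im / 2 < z.im
    linarith
  have hopen : IsOpen {u : ℂ | z.im / 2 < u.im} :=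
    isOpen_lt continuous_const Complex.continuous_im
  exact ((h19th_differentiableOn hw (half_pos hz')).differentiableAt
    (hopen.mem_nhds hmem)).differentiableWithinAt

theorem h19th_mdifferentiable {w : X → ℝ} (hw : h19th_Good w) :
    MDifferentiable 𝓘(ℂ) 𝓘(ℂ) (h19th_theta w) := by
  rw [UpperHalfPlane.mdifferentiable_iff]
  refine (h19th_differentiableOn_upper hw).congr fun z hz => ?_
  simp only [Function.comp_apply, h19th_theta]
  rw [UpperHalfPlane.ofComplex_apply_of_im_pos hz]

/-- the theta function is bounded at `i∞`. -/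
theorem h19th_isBoundedAtImInfty {w : X → ℝ} (hw : h19th_Good w) :
    UpperHalfPlane.IsBoundedAtImInfty (h19th_theta w) := by
  rw [UpperHalfPlane.isBoundedAtImInfty_iff]
  refine ⟨∑' x, Real.exp (-(2 * π * 1) * w x), 1, fun z hz => ?_⟩
  have hs := hw.2 (2 * π * 1) (by positivity)
  rw [h19th_theta]
  refine tsum_of_norm_bounded hs.hasSum fun x => ?_
  exact h19th_norm_term_le hw.1 x hz

/-- translation by `1`: if all exponents are `≡ a mod 1`, then `Θ(z + 1) = e(a) Θ(z)`. -/
theorem h19th_vadd_one {w : X → ℝ} (a : ℝ) (h : ∀ x, ∃ m : ℤ, w x = a + m) (z : UpperHalfPlane) :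
    h19th_theta w ((1 : ℝ) +ᵥ z) = cexp (2 * π * I * a) * h19th_theta w z := by
  rw [h19th_theta, h19th_theta, ← tsum_mul_left]
  congr 1
  funext x
  obtain ⟨m, hm⟩ := h x
  rw [h19th_term, h19th_term, ← Complex.exp_add, UpperHalfPlane.coe_vadd, hm]
  push_cast
  have : 2 * π * I * (a + m) * (1 + (z : ℂ))
      = 2 * π * I * a + 2 * π * I * (a + m) * z + m * (2 * π * I) := by ring
  rw [this, Complex.exp_add, Complex.exp_int_mul_two_pi_mul_I, mul_one]


/-! ### the `q`-expansion when the exponents are natural numbers -/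

section QExp

variable (N : X → ℕ)

/-- the representation numbers `r(n) = #{x | N x = n}`. -/
def h19th_rep (n : ℕ) : ℕ := Nat.card {x : X // N x = n}

variable {N}

theorem h19th_finite_le (hN : h19th_Good fun x => (N x : ℝ)) (n : ℕ) : {x : X | N x ≤ n}.Finite := by
  have hs := hN.2 1 one_pos
  have h0 := hs.tendsto_cofinite_zero
  have hev : ∀ᶠ x in Filter.cofinite, Real.exp (-1 * (N x : ℝ)) < Real.exp (-1 * (n : ℝ)) :=
    h0.eventually (gt_mem_nhds (Real.exp_pos _))
  rw [Filter.eventually_cofinite] at hev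
  refine hev.subset fun x hx => ?_
  simp only [Set.mem_ofPred_eq, not_lt] at hx ⊢
  apply Real.exp_le_exp.mpr
  have : (N x : ℝ) ≤ n := by exact_mod_cast hx
  linarith

theorem h19th_finite_fiber (hN : h19th_Good fun x => (N x : ℝ)) (n : ℕ) : Finite {x : X // N x = n} :=
  ((h19th_finite_le hN n).subset fun x (hx : N x = n) => le_of_eq hx).to_subtype

theorem h19th_term_nat (x : X) (z : ℂ) :
    h19th_term (fun x => (N x : ℝ)) x z = cexp (2 * π * I * z) ^ N x := by
  rw [h19th_term, ← Complex.exp_nat_mul]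
  congr 1
  push_cast
  ring

/-- the `q`-expansion of the theta function, `q = exp (2πiz)`. -/
theorem h19th_hasSum_rep (hN : h19th_Good fun x => (N x : ℝ)) {z : ℂ} (hz : 0 < z.im) :
    HasSum (fun n : ℕ => (h19th_rep N n : ℂ) * cexp (2 * π * I * z) ^ n)
      (∑' x, h19th_term (fun x => (N x : ℝ)) x z) := by
  have hsum := (h19th_summable_term hN hz).hasSum
  rw [← (Equiv.sigmaFiberEquiv N).hasSum_iff] at hsum
  refine hsum.sigma fun n => ?_
  have := h19th_finite_fiber hN n
  have := Fintype.ofFinite {x : X // N x = n}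
  have hfun : (fun c : {x : X // N x = n} =>
      ((fun x => h19th_term (fun x => (N x : ℝ)) x z) ∘ (Equiv.sigmaFiberEquiv N)) ⟨n, c⟩)
      = fun _ => cexp (2 * π * I * z) ^ n := by
    funext c
    simp only [Function.comp_apply, Equiv.sigmaFiberEquiv_apply, h19th_term_nat]
    rw [c.2]
  rw [hfun]
  have h2 := hasSum_fintype (fun _ : {x : X // N x = n} => cexp (2 * π * I * z) ^ n)
  simp only [Finset.sum_const, Finset.card_univ, nsmul_eq_mul] at h2
  rw [h19th_rep, Nat.card_eq_fintype_card]
  exact h2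

theorem h19th_hasSum_qParam (hN : h19th_Good fun x => (N x : ℝ)) (z : UpperHalfPlane) :
    HasSum (fun n : ℕ => (h19th_rep N n : ℂ) • Function.Periodic.qParam 1 (z : ℂ) ^ n)
      (h19th_theta (fun x => (N x : ℝ)) z) := by
  have h := h19th_hasSum_rep hN z.im_pos
  have hq : Function.Periodic.qParam 1 (z : ℂ) = cexp (2 * π * I * z) := by
    simp [Function.Periodic.qParam]
  simp only [hq, smul_eq_mul]
  exact h

/-- `r(0) = 1` if `0` is the only vector of length `0`. -/
theorem h19th_rep_zero (x₀ : X) (h0 : ∀ x, N x = 0 ↔ x = x₀) : h19th_rep N 0 = 1 := by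
  rw [h19th_rep]
  haveI : Unique {x : X // N x = 0} :=
    { default := ⟨x₀, (h0 x₀).2 rfl⟩
      uniq := fun y => Subtype.ext ((h0 y.1).1 y.2) }
  exact Nat.card_unique

/-- `r(n)` is even if the fibre carries a fixed point free involution. -/
theorem h19th_even_rep (hN : h19th_Good fun x => (N x : ℝ)) (σ : X → X) (hσ : ∀ x, σ (σ x) = x)
    (hσN : ∀ x, N (σ x) = N x) {n : ℕ} (hfix : ∀ x, N x = n → σ x ≠ x) :
    Even (h19th_rep N n) := by
  have := h19th_finite_fiber hN n
  have := Fintype.ofFinite {x : X // N x = n}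
  rw [h19th_rep, Nat.card_eq_fintype_card]
  let τ : {x : X // N x = n} → {x : X // N x = n} := fun x => ⟨σ x.1, (hσN x.1).trans x.2⟩
  have hτ : Function.Involutive τ := fun x => Subtype.ext (hσ x.1)
  have hne : ∀ x, τ x ≠ x := fun x hx => hfix x.1 x.2 (congrArg Subtype.val hx)
  rw [even_iff_two_dvd]
  by_contra hcon
  have : Fact (Nat.Prime 2) := ⟨Nat.prime_two⟩
  obtain ⟨a, ha⟩ := Equiv.Perm.exists_fixed_point_of_prime (p := 2) (n := 1) hcon
    (σ := hτ.toPerm τ) (by
      ext x
      simp [pow_two, hτ x])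
  exact hne a ha

end QExp

end Fermat.Agent.S16.Theta
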