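import Mathlib
import Fermat.Agent.S16.Theta.H19ThetaCore

/-!
# P-EIS (S16), lower bound via theta series: module TH0, definitions and interfaces

For an odd prime `p` we fix integers `u ≥ 1`, `σ`, `θ` with `(4u - 1) θ = p σ² + 1` such that the
binary form `u a² + a b + θ b²` is anisotropic mod `p` (`Aux p`).  The quaternary form

  `Q(x) = x₀² + x₀x₁ + u x₁² + pσ x₁x₃ + pu x₂² + p x₂x₃ + pθ x₃²`

is positive definite, even integral of determinant `p²` and level `p` (it is the norm form of a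
maximal order of the quaternion algebra ramified at `p` and `∞`), and its dual lattice is
`ℤ ⊕ ℤ ⊕ (1/p)ℤ ⊕ (1/p)ℤ`.  The theta vector is
`ϑ_{a,b}(z) = ∑_{x ∈ ℤ⁴} e(z Q(x + (0, 0, a/p, b/p)))`, `(a, b) ∈ (ℤ/p)²`.

This file only contains definitions and the statements (`Prop`s) of the interfaces between the
modules TH1 - TH7.
-/

set_option autoImplicit false

open Complex UpperHalfPlane
open scoped Real ModularForm MatrixGroups

noncomputable section

namespace Fermat.Agent.S16.Theta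

/-- Auxiliary data attached to the prime `p`: integers `u ≥ 1`, `σ`, `θ` with
`(4u - 1) θ = p σ² + 1` such that `1 - 4uθ` is not a square mod `p`. -/
structure Aux (p : ℕ) where
  /-- `u = (r + 1) / 4` for the auxiliary prime `r = 4u - 1` -/
  u : ℤ
  /-- `σ` with `p σ² ≡ -1` mod `r` -/
  σ : ℤ
  /-- `θ = (p σ² + 1) / r` -/
  θ : ℤ
  u_pos : 0 < u
  rel : (4 * u - 1) * θ = p * σ ^ 2 + 1
  nonres : ¬ IsSquare (1 - 4 * (u : ZMod p) * (θ : ZMod p))

namespace Aux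

variable {p : ℕ} (D : Aux p)

/-- The quaternary quadratic form of `D` over an arbitrary commutative ring. -/
def form {R : Type*} [CommRing R] (x : Fin 4 → R) : R :=
  x 0 ^ 2 + x 0 * x 1 + (D.u : R) * x 1 ^ 2 + (p : R) * (D.σ : R) * (x 1 * x 3)
    + (p : R) * (D.u : R) * x 2 ^ 2 + (p : R) * (x 2 * x 3) + (p : R) * (D.θ : R) * x 3 ^ 2

/-- The quaternary form on `ℝ⁴`. -/
def Q (v : Fin 4 → ℝ) : ℝ := D.form v

/-- The quaternary form on `ℤ⁴`, with values in `ℤ`. -/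
def QZ (x : Fin 4 → ℤ) : ℤ := D.form x

/-- The quaternary form on `ℤ⁴`, with values in `ℕ` (it is positive definite). -/
def QN (x : Fin 4 → ℤ) : ℕ := (D.QZ x).toNat

/-- The binary form `q(a, b) = u a² + a b + θ b²` on `(ℤ/p)²`
(`Q` on the discriminant group, times `p`). -/
def q2 (a b : ZMod p) : ZMod p := (D.u : ZMod p) * a ^ 2 + a * b + (D.θ : ZMod p) * b ^ 2

/-- The polar form of `q2`: `β((a,b),(a',b')) = 2u a a' + a b' + a' b + 2θ b b'`. -/
def β2 (a b a' b' : ZMod p) : ZMod p :=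
  2 * (D.u : ZMod p) * a * a' + a * b' + a' * b + 2 * (D.θ : ZMod p) * b * b'

end Aux

/-- The representative `(0, 0, a/p, b/p)` of the class `(a, b)` of the discriminant group. -/
def shift {p : ℕ} (a b : ZMod p) : Fin 4 → ℝ :=
  ![0, 0, (a.val : ℝ) / (p : ℝ), (b.val : ℝ) / (p : ℝ)]

namespace Aux

variable {p : ℕ} (D : Aux p)

/-- The exponent family of the component `(a, b)` of the theta vector. -/
def expo (a b : ZMod p) (x : Fin 4 → ℤ) : ℝ := D.Q fun i => (x i : ℝ) + shift a b i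

/-- The theta vector `ϑ_{a,b}(z) = ∑_{x ∈ ℤ⁴} e(z Q(x + (0, 0, a/p, b/p)))`. -/
def vartheta (a b : ZMod p) : ℍ → ℂ := h19th_theta (D.expo a b)

/-- The theta series `Θ(z) = ∑_{x ∈ ℤ⁴} e(z Q(x))` of the lattice. -/
def theta0 : ℍ → ℂ := h19th_theta fun x : Fin 4 → ℤ => ((D.QN x : ℕ) : ℝ)

/-- The translates `Φ_m = Θ ∣ S T^m = -(1/p) ∑_{a,b} e(m q(a,b)/p) ϑ_{a,b}`. -/
def Phi [NeZero p] (m : ZMod p) : ℍ → ℂ := fun z =>
  -(1 / (p : ℂ)) * ∑ a : ZMod p, ∑ b : ZMod p,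
    (ZMod.stdAddChar (m * D.q2 a b) : ℂ) * D.vartheta a b z

/-! ### Interfaces -/

/-- **TH2a.** `Q` is positive definite. -/
def IfacePos : Prop := ∃ c : ℝ, 0 < c ∧ ∀ v : Fin 4 → ℝ, c * ∑ i, v i ^ 2 ≤ D.Q v

/-- **TH2b.** `Q` is congruent to `q2 / p` modulo `1` on the class `(a, b)`. -/
def IfaceCong : Prop := ∀ (a b : ZMod p) (x : Fin 4 → ℤ), ∃ m : ℤ,
  D.expo a b x = ((D.u * (a.val : ℤ) ^ 2 + (a.val : ℤ) * (b.val : ℤ)
    + D.θ * (b.val : ℤ) ^ 2 : ℤ) : ℝ) / (p : ℝ) + m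

/-- **TH2c.** `Q` takes nonnegative integer values on `ℤ⁴` and vanishes only at `0`. -/
def IfaceInt : Prop := (∀ x : Fin 4 → ℤ, ((D.QN x : ℕ) : ℝ) = D.Q fun i => (x i : ℝ)) ∧
  ∀ x : Fin 4 → ℤ, D.QN x = 0 ↔ x = 0

/-- **TH6a.** The exponent families are good (summability). -/
def IfaceGood : Prop := ∀ a b : ZMod p, h19th_Good (D.expo a b)

/-- **TH6b.** The `T`-action on the theta vector. -/
def IfaceT [NeZero p] : Prop := ∀ (a b : ZMod p) (z : ℍ),
  D.vartheta a b ((1 : ℝ) +ᵥ z) = (ZMod.stdAddChar (D.q2 a b) : ℂ) * D.vartheta a b z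

/-- **TH6c.** `Θ = ϑ_{0,0}`, and its `q`-expansion has constant term `1` and even higher
coefficients. -/
def IfaceQExp [NeZero p] : Prop := D.theta0 = D.vartheta 0 0 ∧
  ∃ c : ℕ → ℕ, c 0 = 1 ∧ (∀ n, 1 ≤ n → Even (c n)) ∧
    ∀ z : ℍ, HasSum (fun n : ℕ => (c n : ℂ) • Function.Periodic.qParam 1 (z : ℂ) ^ n) (D.theta0 z)

/-- **TH3b.** The `S`-action on the theta vector (theta inversion):
`ϑ_{a,b}(-1/z) = -(z²/p) ∑_{a',b'} e(β((a,b),(a',b'))/p) ϑ_{a',b'}(z)`. -/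
def IfaceS [NeZero p] : Prop := ∀ (a b : ZMod p) (z : ℍ),
  D.vartheta a b (ModularGroup.S • z) = -((z : ℂ) ^ 2 / (p : ℂ)) *
    ∑ a' : ZMod p, ∑ b' : ZMod p, (ZMod.stdAddChar (D.β2 a b a' b') : ℂ) * D.vartheta a' b' z

/-- **TH4.** The Gauss sum of the anisotropic binary form: `∑_{a,b} e(m q(a,b)/p) = -p`. -/
def IfaceGauss [NeZero p] : Prop := ∀ m : ZMod p, m ≠ 0 →
  ∑ a : ZMod p, ∑ b : ZMod p, (ZMod.stdAddChar (m * D.q2 a b) : ℂ) = -(p : ℂ)

end Aux

/-- **TH1.** Existence of the auxiliary data for every odd prime. -/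
def IfaceAux : Prop := ∀ (p : ℕ) [Fact p.Prime], p ≠ 2 → Nonempty (Aux p)

/-- **TH7 = LB-main.** For every odd prime `p` there is a modular form of weight `2` on `Γ₀(p)`
whose `q`-expansion has constant term `1` and even higher coefficients. -/
def IfaceMain : Prop := ∀ (p : ℕ) [Fact p.Prime], p ≠ 2 →
  ∃ G : ModularForm (CongruenceSubgroup.Gamma0 p) 2,
    PowerSeries.coeff 0 (qExpansion 1 G) = 1 ∧
    ∀ n : ℕ, 1 ≤ n → ∃ r : ℤ, PowerSeries.coeff n (qExpansion 1 G) = 2 * (r : ℂ)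

end Fermat.Agent.S16.Theta
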