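import Mathlib

/-!
# S16 lower bound (LB-theta), module TH4: finite quadratic sums over `ZMod p`

For an odd prime `p`, a primitive additive character `ψ` of `ZMod p` (e.g. `ZMod.stdAddChar`),
and the binary form `q(x, y) = x ^ 2 + x * y + u * y ^ 2` of discriminant `1 - 4 * u`:

* `TH4_sum_sq`       : `∑ t, ψ (c * t ^ 2) = χ c * g`   (`χ` the quadratic character, `g` the
  quadratic Gauss sum, `c ≠ 0`);
* `TH4_gauss_binary` : `∑ x y, ψ (a * q (x, y)) = χ (1 - 4 * u) * p`   (`a ≠ 0`, `1 - 4 * u ≠ 0`);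
* `TH4_gauss_binary_nonsquare` : the same sum is `-p` if `1 - 4 * u` is a non-square;
* `TH4_orthogonality` : `∑ x y, ψ (B ((x, y), (x', y'))) = p ^ 2` if `(x', y') = 0`, else `0`,
  `B` the polar form of `q`;
* `TH4_complete_square` : `∑ h, ψ (b * q h - B (h, h')) = ψ (- b⁻¹ * q h') * ∑ h, ψ (b * q h)`.
-/

set_option autoImplicit false

namespace Fermat.Agent.S16.Theta

open Finset

/-- the quadratic character of `ZMod p`, with complex values -/
noncomputable def TH4_chi (p : ℕ) [Fact p.Prime] : MulChar (ZMod p) ℂ :=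
  (quadraticChar (ZMod p)).ringHomComp (Int.castRingHom ℂ)

/-- the binary quadratic form `x ^ 2 + x * y + u * y ^ 2` -/
def TH4_q {R : Type*} [CommRing R] (u : R) (h : R × R) : R :=
  h.1 ^ 2 + h.1 * h.2 + u * h.2 ^ 2

/-- the polar form of `TH4_q` -/
def TH4_B {R : Type*} [CommRing R] (u : R) (h h' : R × R) : R :=
  2 * h.1 * h'.1 + h.1 * h'.2 + h.2 * h'.1 + 2 * u * h.2 * h'.2

theorem TH4_q_sub {R : Type*} [CommRing R] (u : R) (h k : R × R) :
    TH4_q u (h - k) = TH4_q u h - TH4_B u h k + TH4_q u k := by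
  simp only [TH4_q, TH4_B, Prod.fst_sub, Prod.snd_sub]
  ring

theorem TH4_q_add {R : Type*} [CommRing R] (u : R) (h k : R × R) :
    TH4_q u (h + k) = TH4_q u h + TH4_B u h k + TH4_q u k := by
  simp only [TH4_q, TH4_B, Prod.fst_add, Prod.snd_add]
  ring

theorem TH4_q_smul {R : Type*} [CommRing R] (u c : R) (h : R × R) :
    TH4_q u (c • h) = c ^ 2 * TH4_q u h := by
  simp only [TH4_q, Prod.smul_fst, Prod.smul_snd, smul_eq_mul]
  ring

theorem TH4_B_smul_right {R : Type*} [CommRing R] (u c : R) (h k : R × R) :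
    TH4_B u h (c • k) = c * TH4_B u h k := by
  simp only [TH4_B, Prod.smul_fst, Prod.smul_snd, smul_eq_mul]
  ring

variable {p : ℕ} [Fact p.Prime]

theorem TH4_ringChar (hp : p ≠ 2) : ringChar (ZMod p) ≠ 2 := by
  rw [ZMod.ringChar_zmod_n]
  exact hp

theorem TH4_chi_apply (a : ZMod p) :
    TH4_chi p a = ((quadraticChar (ZMod p) a : ℤ) : ℂ) := rfl

theorem TH4_chi_isQuadratic : (TH4_chi p).IsQuadratic :=
  (quadraticChar_isQuadratic (ZMod p)).comp _

theorem TH4_chi_ne_one (hp : p ≠ 2) : TH4_chi p ≠ 1 := by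
  obtain ⟨a, ha⟩ := quadraticChar_exists_neg_one' (TH4_ringChar hp)
  intro h
  have h1 : TH4_chi p (a : ZMod p) = 1 := by
    rw [h]
    exact MulChar.one_apply a.isUnit
  rw [TH4_chi_apply, ha] at h1
  norm_num at h1

theorem TH4_chi_mul_self {a : ZMod p} (ha : a ≠ 0) : TH4_chi p a * TH4_chi p a = 1 := by
  rw [TH4_chi_apply, ← Int.cast_mul, ← pow_two, quadraticChar_sq_one ha]
  simp

theorem TH4_chi_sq {a : ZMod p} (ha : a ≠ 0) : TH4_chi p (a ^ 2) = 1 := by
  rw [TH4_chi_apply, quadraticChar_sq_one' ha]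
  simp

theorem TH4_chi_of_not_isSquare {a : ZMod p} (ha : ¬ IsSquare a) : TH4_chi p a = -1 := by
  rw [TH4_chi_apply, quadraticChar_neg_one_iff_not_isSquare.mpr ha]
  simp

/-- the number of square roots, as a complex number -/
theorem TH4_card_sqrts (hp : p ≠ 2) (s : ZMod p) :
    ((#{t : ZMod p | t ^ 2 = s} : ℕ) : ℂ) = TH4_chi p s + 1 := by
  have h := quadraticChar_card_sqrts (TH4_ringChar hp) s
  have h2 : {x : ZMod p | x ^ 2 = s}.toFinset = ({t : ZMod p | t ^ 2 = s} : Finset (ZMod p)) := by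
    ext t
    simp
  rw [h2] at h
  rw [TH4_chi_apply]
  have := congrArg (Int.cast : ℤ → ℂ) h
  push_cast at this
  exact this

/-- **Quadratic exponential sums in one variable.** -/
theorem TH4_sum_sq (hp : p ≠ 2) (ψ : AddChar (ZMod p) ℂ) (hψ : ψ.IsPrimitive)
    {c : ZMod p} (hc : c ≠ 0) :
    ∑ t : ZMod p, ψ (c * t ^ 2) = TH4_chi p c * gaussSum (TH4_chi p) ψ := by
  classical
  have h1 : ∑ t : ZMod p, ψ (c * t ^ 2)
      = ∑ s : ZMod p, (TH4_chi p s + 1) * ψ (c * s) := by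
    rw [← Finset.sum_fiberwise (s := (univ : Finset (ZMod p))) (g := fun t => t ^ 2)
      (f := fun t => ψ (c * t ^ 2))]
    refine Finset.sum_congr rfl fun s _ => ?_
    have : ∀ t ∈ ({t ∈ (univ : Finset (ZMod p)) | t ^ 2 = s} : Finset (ZMod p)),
        ψ (c * t ^ 2) = ψ (c * s) := by
      intro t ht
      rw [(Finset.mem_filter.mp ht).2]
    rw [Finset.sum_congr rfl this, Finset.sum_const, nsmul_eq_mul, TH4_card_sqrts hp s]
  have hu : IsUnit c := hc.isUnit
  obtain ⟨cu, hcu⟩ := hu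
  have h2 : ∑ s : ZMod p, ψ (c * s) = 0 := by
    have hne : ψ.mulShift c ≠ 1 := hψ hc
    have := AddChar.sum_eq_zero_of_ne_one hne
    simpa [AddChar.mulShift_apply] using this
  have h3 : ∑ s : ZMod p, TH4_chi p s * ψ (c * s) = TH4_chi p c * gaussSum (TH4_chi p) ψ := by
    have h4 : ∑ s : ZMod p, TH4_chi p s * ψ (c * s) = gaussSum (TH4_chi p) (ψ.mulShift cu) := by
      simp only [gaussSum, AddChar.mulShift_apply, hcu]
    rw [h4, gaussSum_mulShift_eq, (TH4_chi_isQuadratic (p := p)).inv, hcu]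
  rw [h1]
  simp only [add_mul, one_mul, Finset.sum_add_distrib, h2, h3, add_zero]

/-- the square of the quadratic Gauss sum -/
theorem TH4_gaussSum_sq (hp : p ≠ 2) (ψ : AddChar (ZMod p) ℂ) (hψ : ψ.IsPrimitive) :
    gaussSum (TH4_chi p) ψ ^ 2 = TH4_chi p (-1) * p := by
  rw [gaussSum_sq (χ := TH4_chi p) (TH4_chi_ne_one hp) (TH4_chi_isQuadratic (p := p)) hψ,
    ZMod.card]

/-- **The binary Gauss sum.**  For `a ≠ 0` and discriminant `1 - 4 * u ≠ 0`:
`∑_{x, y} ψ (a * (x ^ 2 + x * y + u * y ^ 2)) = χ (1 - 4 * u) * p`. -/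
theorem TH4_gauss_binary (hp : p ≠ 2) (ψ : AddChar (ZMod p) ℂ) (hψ : ψ.IsPrimitive)
    (u : ZMod p) (hu : 1 - 4 * u ≠ 0) {a : ZMod p} (ha : a ≠ 0) :
    ∑ h : ZMod p × ZMod p, ψ (a * TH4_q u h) = TH4_chi p (1 - 4 * u) * p := by
  have h2 : (2 : ZMod p) ≠ 0 := by
    intro h
    have : ((2 : ℕ) : ZMod p) = 0 := by exact_mod_cast h
    rw [ZMod.natCast_eq_zero_iff] at this
    have hpp : p.Prime := Fact.out
    exact hp ((Nat.prime_dvd_prime_iff_eq hpp Nat.prime_two).mp this)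
  have h4 : (4 : ZMod p) ≠ 0 := by
    have : (4 : ZMod p) = 2 * 2 := by norm_num
    rw [this]
    exact mul_ne_zero h2 h2
  set d : ZMod p := u - 4⁻¹ with hd
  have hd4 : 4 * d = -(1 - 4 * u) := by
    rw [hd, mul_sub, mul_inv_cancel₀ h4]
    ring
  have hd0 : d ≠ 0 := by
    intro h
    rw [h, mul_zero] at hd4
    exact hu (neg_eq_zero.mp hd4.symm)
  -- completing the square
  have key : ∀ y : ZMod p, ∑ x : ZMod p, ψ (a * TH4_q u (x, y))
      = ψ (a * d * y ^ 2) * ∑ X : ZMod p, ψ (a * X ^ 2) := by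
    intro y
    rw [Finset.mul_sum]
    refine Fintype.sum_equiv (Equiv.addRight (2⁻¹ * y)) _ _ fun x => ?_
    rw [← AddChar.map_add_eq_mul]
    congr 1
    simp only [TH4_q, Equiv.coe_addRight, hd]
    have e4 : (4 : ZMod p)⁻¹ = 2⁻¹ * 2⁻¹ := by
      rw [← mul_inv]
      norm_num
    have e2 : (2 : ZMod p) * 2⁻¹ = 1 := mul_inv_cancel₀ h2
    rw [e4]
    linear_combination (-(a * x * y)) * e2
  rw [Fintype.sum_prod_type_right]
  simp only [key]
  rw [← Finset.sum_mul]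
  have hs1 := TH4_sum_sq hp ψ hψ ha
  have hs2 : ∑ y : ZMod p, ψ (a * d * y ^ 2)
      = TH4_chi p (a * d) * gaussSum (TH4_chi p) ψ :=
    TH4_sum_sq hp ψ hψ (mul_ne_zero ha hd0)
  rw [hs1, hs2]
  have hg := TH4_gaussSum_sq hp ψ hψ
  have hchi : TH4_chi p (a * d) * TH4_chi p a * TH4_chi p (-1) = TH4_chi p (1 - 4 * u) := by
    have e1 : TH4_chi p (a * d) * TH4_chi p a * TH4_chi p (-1)
        = TH4_chi p (a ^ 2 * (-d)) := by
      rw [← map_mul, ← map_mul]
      congr 1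
      ring
    have e3 : TH4_chi p (1 - 4 * u) = TH4_chi p (2 ^ 2 * (-d)) := by
      congr 1
      have : (2 : ZMod p) ^ 2 * (-d) = -(4 * d) := by ring
      rw [this, hd4, neg_neg]
    rw [e1, e3, map_mul, map_mul, TH4_chi_sq ha, TH4_chi_sq h2]
  calc TH4_chi p (a * d) * gaussSum (TH4_chi p) ψ * (TH4_chi p a * gaussSum (TH4_chi p) ψ)
      = TH4_chi p (a * d) * TH4_chi p a * gaussSum (TH4_chi p) ψ ^ 2 := by ring
    _ = TH4_chi p (a * d) * TH4_chi p a * TH4_chi p (-1) * p := by rw [hg]; ring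
    _ = TH4_chi p (1 - 4 * u) * p := by rw [hchi]

/-- **TH4, Gauss sum.**  If the discriminant `1 - 4 * u` is a non-square modulo `p`, then
`∑_{x, y} ψ (a * (x ^ 2 + x * y + u * y ^ 2)) = -p` for every `a ≠ 0`. -/
theorem TH4_gauss_binary_nonsquare (hp : p ≠ 2) (ψ : AddChar (ZMod p) ℂ) (hψ : ψ.IsPrimitive)
    (u : ZMod p) (hu : ¬ IsSquare (1 - 4 * u)) {a : ZMod p} (ha : a ≠ 0) :
    ∑ h : ZMod p × ZMod p, ψ (a * TH4_q u h) = -(p : ℂ) := by
  have hu0 : 1 - 4 * u ≠ 0 := by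
    intro h
    exact hu ⟨0, by rw [h]; simp⟩
  rw [TH4_gauss_binary hp ψ hψ u hu0 ha, TH4_chi_of_not_isSquare hu]
  ring

/-- **TH4, orthogonality.** -/
theorem TH4_orthogonality (ψ : AddChar (ZMod p) ℂ) (hψ : ψ.IsPrimitive)
    (u : ZMod p) (hu : 1 - 4 * u ≠ 0) (h' : ZMod p × ZMod p) :
    ∑ h : ZMod p × ZMod p, ψ (TH4_B u h h') = if h' = 0 then (p : ℂ) ^ 2 else 0 := by
  classical
  obtain ⟨x', y'⟩ := h'
  have hsplit : ∀ h : ZMod p × ZMod p, ψ (TH4_B u h (x', y'))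
      = ψ (h.1 * (2 * x' + y')) * ψ (h.2 * (x' + 2 * u * y')) := by
    intro h
    rw [← AddChar.map_add_eq_mul]
    congr 1
    simp only [TH4_B]
    ring
  simp only [hsplit]
  rw [Fintype.sum_prod_type]
  simp only [← Finset.mul_sum]
  rw [← Finset.sum_mul]
  rw [AddChar.sum_mulShift _ hψ, AddChar.sum_mulShift _ hψ, ZMod.card]
  by_cases h0 : ((x', y') : ZMod p × ZMod p) = 0
  · have hx : x' = 0 := congrArg Prod.fst h0
    have hy : y' = 0 := congrArg Prod.snd h0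
    subst hx; subst hy
    simp [pow_two]
  · rw [if_neg h0]
    by_cases h1 : 2 * x' + y' = 0
    · by_cases h2 : x' + 2 * u * y' = 0
      · exfalso
        apply h0
        have hy : (1 - 4 * u) * y' = 0 := by linear_combination h1 - 2 * h2
        have hy0 : y' = 0 := (mul_eq_zero.mp hy).resolve_left hu
        have hx0 : x' = 0 := by
          rw [hy0] at h2
          simpa using h2
        rw [hx0, hy0]
        rfl
      · simp [h2]
    · simp [h1]

/-- **TH4, completing the square.** -/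
theorem TH4_complete_square (ψ : AddChar (ZMod p) ℂ) (u : ZMod p) {b : ZMod p} (hb : b ≠ 0)
    (h' : ZMod p × ZMod p) :
    ∑ h : ZMod p × ZMod p, ψ (b * TH4_q u h - TH4_B u h h')
      = ψ (-(b⁻¹ * TH4_q u h')) * ∑ h : ZMod p × ZMod p, ψ (b * TH4_q u h) := by
  rw [Finset.mul_sum]
  refine Fintype.sum_equiv (Equiv.subRight (b⁻¹ • h')) _ _ fun h => ?_
  rw [← AddChar.map_add_eq_mul]
  congr 1
  simp only [Equiv.subRight_apply]
  rw [TH4_q_sub, TH4_B_smul_right, TH4_q_smul]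
  have hbb : b * b⁻¹ = 1 := mul_inv_cancel₀ hb
  linear_combination (TH4_B u h h' - b⁻¹ * TH4_q u h') * hbb

/-- **TH4, the twisted binary Gauss sum** (used for `Φ_b ∣ S = Φ_{-1/b}`): for `b ≠ 0` and
non-square discriminant,
`∑_h ψ (b * q h - B (h, h')) = -p * ψ (-(b⁻¹ * q h'))`. -/
theorem TH4_twisted_gauss (hp : p ≠ 2) (ψ : AddChar (ZMod p) ℂ) (hψ : ψ.IsPrimitive)
    (u : ZMod p) (hu : ¬ IsSquare (1 - 4 * u)) {b : ZMod p} (hb : b ≠ 0)
    (h' : ZMod p × ZMod p) :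
    ∑ h : ZMod p × ZMod p, ψ (b * TH4_q u h - TH4_B u h h')
      = -(p : ℂ) * ψ (-(b⁻¹ * TH4_q u h')) := by
  rw [TH4_complete_square ψ u hb h', TH4_gauss_binary_nonsquare hp ψ hψ u hu hb]
  ring

/-! ### Specialisation to the standard additive character and to the lattice data -/

/-- with `r + 1 = 4 * u` the discriminant `1 - 4 * u` is `-r`, a non-square when
`(-r / p) = -1`. -/
theorem TH4_not_isSquare_disc {r u : ℕ} (hleg : legendreSym p (-(r : ℤ)) = -1)
    (hu : r + 1 = 4 * u) : ¬ IsSquare (1 - 4 * (u : ZMod p)) := by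
  have h1 : (1 - 4 * (u : ZMod p)) = ((-(r : ℤ) : ℤ) : ZMod p) := by
    have : ((r + 1 : ℕ) : ZMod p) = ((4 * u : ℕ) : ZMod p) := by rw [hu]
    push_cast at this
    push_cast
    linear_combination this
  rw [h1]
  exact legendreSym.eq_neg_one_iff p |>.mp hleg

/-- **TH4 (standard character).**  `∑_{x, y mod p} e(a (x² + x y + u y²) / p) = -p`. -/
theorem TH4_gauss_std (hp : p ≠ 2) (u : ZMod p) (hu : ¬ IsSquare (1 - 4 * u))
    {a : ZMod p} (ha : a ≠ 0) :
    ∑ h : ZMod p × ZMod p, ZMod.stdAddChar (a * TH4_q u h) = -(p : ℂ) :=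
  TH4_gauss_binary_nonsquare hp _ (ZMod.isPrimitive_stdAddChar p) u hu ha

/-- **TH4 (standard character), orthogonality.** -/
theorem TH4_orthogonality_std (u : ZMod p) (hu : 1 - 4 * u ≠ 0) (h' : ZMod p × ZMod p) :
    ∑ h : ZMod p × ZMod p, ZMod.stdAddChar (TH4_B u h h')
      = if h' = 0 then (p : ℂ) ^ 2 else 0 :=
  TH4_orthogonality _ (ZMod.isPrimitive_stdAddChar p) u hu h'

/-- **TH4 (standard character), twisted Gauss sum.** -/
theorem TH4_twisted_gauss_std (hp : p ≠ 2) (u : ZMod p) (hu : ¬ IsSquare (1 - 4 * u))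
    {b : ZMod p} (hb : b ≠ 0) (h' : ZMod p × ZMod p) :
    ∑ h : ZMod p × ZMod p, ZMod.stdAddChar (b * TH4_q u h - TH4_B u h h')
      = -(p : ℂ) * ZMod.stdAddChar (-(b⁻¹ * TH4_q u h')) :=
  TH4_twisted_gauss hp _ (ZMod.isPrimitive_stdAddChar p) u hu hb h'

/-- the standard character on integers: `ψ (n mod p) = exp (2 π i n / p)` -/
theorem TH4_std_intCast (n : ℤ) :
    ZMod.stdAddChar ((n : ZMod p)) = Complex.exp (2 * Real.pi * Complex.I * n / p) :=
  ZMod.stdAddChar_coe n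

end Fermat.Agent.S16.Theta
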