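import Mathlib
import Fermat.Agent.S16.Theta.Defs
import Fermat.Agent.S16.Theta.GaussSum

/-!
# P-EIS (S16), lower bound via theta series: the Gauss sum of the discriminant form

Adapter from the binary Gauss sum of `x² + x y + u' y²` (module TH4, `GaussSum.lean`) to the
discriminant form `q(a, b) = u a² + a b + θ b²` of `Defs.lean`: `u` is a unit modulo `p` and
`u q(a, b) = (u a)² + (u a) b + (u θ) b²`.
-/

set_option autoImplicit false

noncomputable section

namespace Fermat.Agent.S16.Theta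

namespace TH7g

variable {p : ℕ} [Fact p.Prime] (D : Aux p)

lemma u_ne_zero : (D.u : ZMod p) ≠ 0 := by
  intro h
  apply D.nonres
  rw [h]
  exact ⟨1, by ring⟩

lemma q2_eq (a b : ZMod p) :
    D.q2 a b = (D.u : ZMod p)⁻¹ * TH4_q ((D.u : ZMod p) * (D.θ : ZMod p)) ((D.u : ZMod p) * a, b) := by
  have hu := u_ne_zero D
  simp only [Aux.q2, TH4_q]
  field_simp

end TH7g

open TH7g in
/-- **TH4 for `Defs`.** `∑_{a,b} e(m q(a,b)/p) = -p` for `m ≠ 0`. -/
theorem ifaceGauss_of_TH4 {p : ℕ} [Fact p.Prime] (hp : p ≠ 2) (D : Aux p) : D.IfaceGauss := by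
  intro m hm
  have hu := u_ne_zero D
  have hmu : m * (D.u : ZMod p)⁻¹ ≠ 0 := mul_ne_zero hm (inv_ne_zero hu)
  have hns : ¬ IsSquare (1 - 4 * ((D.u : ZMod p) * (D.θ : ZMod p))) := by
    have := D.nonres
    rwa [mul_assoc] at this
  have h := TH4_gauss_std hp ((D.u : ZMod p) * (D.θ : ZMod p)) hns hmu
  rw [← h, Fintype.sum_prod_type]
  refine Fintype.sum_equiv (Equiv.mulLeft₀ (D.u : ZMod p) hu) _ _ fun a => ?_
  refine Finset.sum_congr rfl fun b _ => ?_
  rw [q2_eq D a b]
  simp only [Equiv.mulLeft₀_apply]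
  rw [mul_assoc]

end Fermat.Agent.S16.Theta
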