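import Mathlib
import Fermat.Agent.S16.Theta.Defs

/-!
# P-EIS (S16), lower bound via theta series: the inversion interface (between TH3a and TH3b)

The Gram matrix of `2 Q` is `G = V * diag(1, 1, p, p)` with `V` unimodular.  Theta inversion for
`Q` with a real characteristic `k`, after the substitution `m = V n` in the dual sum, reads

  `∑_{x ∈ ℤ⁴} e((-1/z) Q(x + k)) = -(z²/p) ∑_{n ∈ ℤ⁴} e(z Q(n₀, n₁, n₂/p, n₃/p)) e((V n) · k)`.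

This is `Aux.IfaceInv`; it is the only analytic input of the `S`-transformation of the theta
vector.
-/

set_option autoImplicit false

open Complex UpperHalfPlane
open scoped Real

noncomputable section

namespace Fermat.Agent.S16.Theta

namespace Aux

variable {p : ℕ} (D : Aux p)

/-- The unimodular integer matrix `V` with `Gram = V * diag(1, 1, p, p)`. -/
def matV : Matrix (Fin 4) (Fin 4) ℤ :=
  !![2, 1, 0, 0; 1, 2 * D.u, 0, D.σ; 0, 0, 2 * D.u, 1; 0, (p : ℤ) * D.σ, 1, 2 * D.θ]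

/-- The inverse of `matV`. -/
def matW : Matrix (Fin 4) (Fin 4) ℤ :=
  !![2 * D.u * D.θ, 1 - 4 * D.u * D.θ, -D.σ, 2 * D.u * D.σ;
     1 - 4 * D.u * D.θ, -2 * (1 - 4 * D.u * D.θ), 2 * D.σ, -4 * D.u * D.σ;
     -((p : ℤ) * D.σ), 2 * (p : ℤ) * D.σ, 2, -(4 * D.u - 1);
     2 * D.u * (p : ℤ) * D.σ, -4 * D.u * (p : ℤ) * D.σ, 1 - 4 * D.u, 2 * D.u * (4 * D.u - 1)]

/-- The Gram matrix of `2 Q` (over `ℝ`). -/
def gram : Matrix (Fin 4) (Fin 4) ℝ :=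
  !![2, 1, 0, 0;
     1, 2 * (D.u : ℝ), 0, (p : ℝ) * (D.σ : ℝ);
     0, 0, 2 * (p : ℝ) * (D.u : ℝ), (p : ℝ);
     0, (p : ℝ) * (D.σ : ℝ), (p : ℝ), 2 * (p : ℝ) * (D.θ : ℝ)]

/-- The inverse of the Gram matrix (over `ℝ`): `diag(1, 1, 1/p, 1/p) * W`. -/
def gramInv : Matrix (Fin 4) (Fin 4) ℝ :=
  !![2 * (D.u : ℝ) * D.θ, 1 - 4 * (D.u : ℝ) * D.θ, -(D.σ : ℝ), 2 * (D.u : ℝ) * D.σ;
     1 - 4 * (D.u : ℝ) * D.θ, -2 * (1 - 4 * (D.u : ℝ) * D.θ), 2 * (D.σ : ℝ), -4 * (D.u : ℝ) * D.σ;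
     -(D.σ : ℝ), 2 * (D.σ : ℝ), 2 / (p : ℝ), -(4 * (D.u : ℝ) - 1) / (p : ℝ);
     2 * (D.u : ℝ) * D.σ, -4 * (D.u : ℝ) * D.σ, (1 - 4 * (D.u : ℝ)) / (p : ℝ),
       2 * (D.u : ℝ) * (4 * (D.u : ℝ) - 1) / (p : ℝ)]

/-- The dual vector `(n₀, n₁, n₂/p, n₃/p)` attached to `n ∈ ℤ⁴`. -/
def dualVec (n : Fin 4 → ℤ) : Fin 4 → ℝ :=
  ![(n 0 : ℝ), (n 1 : ℝ), (n 2 : ℝ) / (p : ℝ), (n 3 : ℝ) / (p : ℝ)]

/-- The pairing `(V n) · k`. -/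
def pairV (n : Fin 4 → ℤ) (k : Fin 4 → ℝ) : ℝ :=
  (2 * (n 0 : ℝ) + n 1) * k 0 + ((n 0 : ℝ) + 2 * D.u * n 1 + D.σ * n 3) * k 1
    + (2 * (D.u : ℝ) * n 2 + n 3) * k 2 + ((p : ℝ) * D.σ * n 1 + n 2 + 2 * D.θ * n 3) * k 3

/-- One term of the dual sum. -/
def dualTerm (k : Fin 4 → ℝ) (z : ℂ) (n : Fin 4 → ℤ) : ℂ :=
  cexp (2 * π * Complex.I * (D.Q (dualVec (p := p) n) : ℂ) * z
    + 2 * π * Complex.I * (D.pairV n k : ℂ))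

/-- **Theta inversion** for the lattice of `D` with real characteristic `k`
(output of TH3a + matrix algebra, input of TH3b). -/
def IfaceInv : Prop := ∀ (k : Fin 4 → ℝ) (z : ℍ),
  Summable (D.dualTerm k (z : ℂ)) ∧
  h19th_theta (fun x : Fin 4 → ℤ => D.Q fun i => (x i : ℝ) + k i) (ModularGroup.S • z) =
    -((z : ℂ) ^ 2 / (p : ℂ)) * ∑' n : Fin 4 → ℤ, D.dualTerm k (z : ℂ) n

end Aux

end Fermat.Agent.S16.Theta
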