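import Mathlib
import Fermat.Agent.S16.Theta.Defs

/-!
# P-EIS (S16), lower bound via theta series: module TH2, algebra of the quaternary lattice

For `D : Aux p` the quaternary form is
`Q(x) = x₀² + x₀x₁ + u x₁² + pσ x₁x₃ + pu x₂² + p x₂x₃ + pθ x₃²` with `(4u - 1) θ = p σ² + 1`.

* `TH2_four_r_u_Q` : the triangular form
  `Q v = (v₀ + v₁/2)² + (r/4)(v₁ + (2pσ/r) v₃)² + pu (v₂ + v₃/(2u))² + (p/(4ur)) v₃²`, `r = 4u - 1`,
  cleared of denominators.
* `ifacePos` : `Q` is positive definite (`D.IfacePos`).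
* `ifaceCong` : `Q ≡ q2 / p` mod `1` on the class `(a, b)` of the discriminant group
  (`D.IfaceCong`).
* `ifaceInt` : `Q` takes nonnegative integer values on `ℤ⁴` and vanishes only at `0`
  (`D.IfaceInt`).
-/

set_option autoImplicit false

open scoped Real

noncomputable section

namespace Fermat.Agent.S16.Theta

/-! ### A general lemma: positive homogeneous continuous functions on `ℝ⁴` -/

/-- A continuous function on `ℝ⁴`, homogeneous of degree two and positive away from the origin,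
is bounded below by a positive multiple of the euclidean square norm. -/
theorem TH2_exists_le_of_homogeneous (f : (Fin 4 → ℝ) → ℝ) (hc : Continuous f)
    (hh : ∀ (c : ℝ) (v : Fin 4 → ℝ), f (c • v) = c ^ 2 * f v)
    (hpos : ∀ v : Fin 4 → ℝ, v ≠ 0 → 0 < f v) :
    ∃ c : ℝ, 0 < c ∧ ∀ v : Fin 4 → ℝ, c * ∑ i, v i ^ 2 ≤ f v := by
  set S : Set (Fin 4 → ℝ) := {v | ∑ i, v i ^ 2 = 1} with hS
  have hcont : Continuous fun v : Fin 4 → ℝ => ∑ i, v i ^ 2 := by fun_prop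
  have hclosed : IsClosed S := isClosed_eq hcont continuous_const
  have hbdd : Bornology.IsBounded S := by
    refine (Metric.isBounded_iff_subset_closedBall (0 : Fin 4 → ℝ)).mpr ⟨1, fun v hv => ?_⟩
    rw [Metric.mem_closedBall, dist_zero_right, pi_norm_le_iff_of_nonneg zero_le_one]
    intro i
    have h1 : v i ^ 2 ≤ ∑ j, v j ^ 2 :=
      Finset.single_le_sum (f := fun j => v j ^ 2) (fun j _ => sq_nonneg (v j)) (Finset.mem_univ i)
    have h2 : ∑ j, v j ^ 2 = 1 := hv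
    rw [Real.norm_eq_abs]
    exact abs_le_one_iff_mul_self_le_one.mpr (by nlinarith)
  have hcompact : IsCompact S := Metric.isCompact_of_isClosed_isBounded hclosed hbdd
  have hne : S.Nonempty := by
    refine ⟨Pi.single 0 1, ?_⟩
    simp [hS, Fin.sum_univ_four]
  obtain ⟨w, hwS, hmin⟩ := hcompact.exists_isMinOn hne hc.continuousOn
  have hw0 : w ≠ 0 := by
    rintro rfl
    have : (∑ i : Fin 4, ((0 : Fin 4 → ℝ) i) ^ 2) = 1 := hwS
    simp at this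
  refine ⟨f w, hpos w hw0, fun v => ?_⟩
  set N : ℝ := ∑ i, v i ^ 2 with hN
  have hN0 : 0 ≤ N := Finset.sum_nonneg fun i _ => sq_nonneg (v i)
  rcases eq_or_lt_of_le hN0 with h0 | h0
  · have hv : v = 0 := by
      funext i
      have h1 : v i ^ 2 ≤ ∑ j, v j ^ 2 :=
        Finset.single_le_sum (f := fun j => v j ^ 2) (fun j _ => sq_nonneg (v j))
          (Finset.mem_univ i)
      have h2 : v i ^ 2 ≤ 0 := by rw [← hN, ← h0] at h1; exact h1
      have h3 : v i ^ 2 = 0 := le_antisymm h2 (sq_nonneg _)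
      simpa using h3
    have hf0 : f 0 = 0 := by
      have := hh 0 0
      simpa using this
    rw [← h0, hv, hf0, mul_zero]
  · set l : ℝ := Real.sqrt N with hl
    have hlpos : 0 < l := Real.sqrt_pos.mpr h0
    have hl2 : l ^ 2 = N := Real.sq_sqrt hN0
    have hmem : (l⁻¹ • v) ∈ S := by
      change ∑ i, (l⁻¹ • v) i ^ 2 = 1
      simp only [Pi.smul_apply, smul_eq_mul, mul_pow]
      rw [← Finset.mul_sum, ← hN, ← hl2]
      field_simp
    have h1 : f w ≤ f (l⁻¹ • v) := hmin hmem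
    have h2 : f v = l ^ 2 * f (l⁻¹ • v) := by
      rw [← hh, smul_smul, mul_inv_cancel₀ hlpos.ne', one_smul]
    rw [h2, hl2, mul_comm]
    exact mul_le_mul_of_nonneg_left h1 hN0

namespace Aux

variable {p : ℕ} (D : Aux p)

/-! ### Basic facts on the auxiliary data -/

theorem TH2_r_pos : 0 < 4 * D.u - 1 := by
  have := D.u_pos
  omega

include D in
theorem TH2_p_ne_zero : p ≠ 0 := by
  rintro rfl
  have h := D.rel
  have hr := D.TH2_r_pos
  simp only [Nat.cast_zero, zero_mul, zero_add] at h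
  have h1 : 4 * D.u - 1 = 1 ∨ 4 * D.u - 1 = -1 := Int.isUnit_iff.mp (IsUnit.of_mul_eq_one _ h)
  omega

include D in
theorem TH2_p_pos : 0 < p := Nat.pos_of_ne_zero D.TH2_p_ne_zero

theorem TH2_form_intCast {R : Type*} [CommRing R] (x : Fin 4 → ℤ) :
    ((D.form x : ℤ) : R) = D.form (fun i => (x i : R)) := by
  simp only [form]
  push_cast
  ring

theorem TH2_Q_intCast (x : Fin 4 → ℤ) : ((D.QZ x : ℤ) : ℝ) = D.Q (fun i => (x i : ℝ)) :=
  D.TH2_form_intCast x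

theorem TH2_Q_smul (c : ℝ) (v : Fin 4 → ℝ) : D.Q (c • v) = c ^ 2 * D.Q v := by
  simp only [Q, form, Pi.smul_apply, smul_eq_mul]
  ring

theorem TH2_continuous_Q : Continuous D.Q := by
  unfold Q form
  fun_prop

/-! ### The triangular form -/

/-- The triangular form of `Q`, cleared of denominators: with `r = 4u - 1`,
`4 r u Q(v) = r u (2 v₀ + v₁)² + u (r v₁ + 2 p σ v₃)² + p r (2 u v₂ + v₃)² + p v₃²`. -/
theorem TH2_four_r_u_Q (v : Fin 4 → ℝ) :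
    4 * (4 * (D.u : ℝ) - 1) * (D.u : ℝ) * D.Q v =
      (4 * (D.u : ℝ) - 1) * (D.u : ℝ) * (2 * v 0 + v 1) ^ 2 +
      (D.u : ℝ) * ((4 * (D.u : ℝ) - 1) * v 1 + 2 * (p : ℝ) * (D.σ : ℝ) * v 3) ^ 2 +
      (p : ℝ) * (4 * (D.u : ℝ) - 1) * (2 * (D.u : ℝ) * v 2 + v 3) ^ 2 + (p : ℝ) * v 3 ^ 2 := by
  have hrel : (4 * (D.u : ℝ) - 1) * (D.θ : ℝ) = (p : ℝ) * (D.σ : ℝ) ^ 2 + 1 := by
    exact_mod_cast D.rel
  simp only [Q, form]
  linear_combination (4 * (D.u : ℝ) * (p : ℝ) * v 3 ^ 2) * hrel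

/-- The triangular form of `Q`:
`Q(v) = (v₀ + v₁/2)² + (r/4)(v₁ + (2pσ/r) v₃)² + pu (v₂ + v₃/(2u))² + (p/(4ur)) v₃²`. -/
theorem TH2_Q_eq_triangular (v : Fin 4 → ℝ) :
    D.Q v = (v 0 + v 1 / 2) ^ 2 +
      (4 * (D.u : ℝ) - 1) / 4 * (v 1 + 2 * (p : ℝ) * (D.σ : ℝ) / (4 * (D.u : ℝ) - 1) * v 3) ^ 2 +
      (p : ℝ) * (D.u : ℝ) * (v 2 + v 3 / (2 * (D.u : ℝ))) ^ 2 +
      (p : ℝ) / (4 * (D.u : ℝ) * (4 * (D.u : ℝ) - 1)) * v 3 ^ 2 := by
  have hu : (0 : ℝ) < (D.u : ℝ) := by exact_mod_cast D.u_pos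
  have hr : (0 : ℝ) < 4 * (D.u : ℝ) - 1 := by exact_mod_cast D.TH2_r_pos
  have h := D.TH2_four_r_u_Q v
  have hne : 4 * (4 * (D.u : ℝ) - 1) * (D.u : ℝ) ≠ 0 := by positivity
  apply mul_left_cancel₀ hne
  rw [h]
  field_simp
  ring

theorem TH2_Q_nonneg (v : Fin 4 → ℝ) : 0 ≤ D.Q v := by
  have hu : (0 : ℝ) < (D.u : ℝ) := by exact_mod_cast D.u_pos
  have hr : (0 : ℝ) < 4 * (D.u : ℝ) - 1 := by exact_mod_cast D.TH2_r_pos
  have hp : (0 : ℝ) ≤ (p : ℝ) := Nat.cast_nonneg p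
  have h := D.TH2_four_r_u_Q v
  have hpos : 0 < 4 * (4 * (D.u : ℝ) - 1) * (D.u : ℝ) := by positivity
  have hrhs : 0 ≤ 4 * (4 * (D.u : ℝ) - 1) * (D.u : ℝ) * D.Q v := by
    rw [h]
    positivity
  exact nonneg_of_mul_nonneg_right hrhs hpos

theorem TH2_eq_zero_of_Q_le (v : Fin 4 → ℝ) (hv : D.Q v ≤ 0) : v = 0 := by
  have hu : (0 : ℝ) < (D.u : ℝ) := by exact_mod_cast D.u_pos
  have hr : (0 : ℝ) < 4 * (D.u : ℝ) - 1 := by exact_mod_cast D.TH2_r_pos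
  have hp : (0 : ℝ) < (p : ℝ) := by exact_mod_cast D.TH2_p_pos
  have h := D.TH2_four_r_u_Q v
  have hpos : 0 < 4 * (4 * (D.u : ℝ) - 1) * (D.u : ℝ) := by positivity
  have hle : 4 * (4 * (D.u : ℝ) - 1) * (D.u : ℝ) * D.Q v ≤ 0 :=
    mul_nonpos_of_nonneg_of_nonpos hpos.le hv
  rw [h] at hle
  have t1 : 0 ≤ (4 * (D.u : ℝ) - 1) * (D.u : ℝ) * (2 * v 0 + v 1) ^ 2 := by positivity
  have t2 : 0 ≤ (D.u : ℝ) * ((4 * (D.u : ℝ) - 1) * v 1 + 2 * (p : ℝ) * (D.σ : ℝ) * v 3) ^ 2 := by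
    positivity
  have t3 : 0 ≤ (p : ℝ) * (4 * (D.u : ℝ) - 1) * (2 * (D.u : ℝ) * v 2 + v 3) ^ 2 := by positivity
  have t4 : 0 ≤ (p : ℝ) * v 3 ^ 2 := by positivity
  have e4 : (p : ℝ) * v 3 ^ 2 = 0 := by linarith
  have e3 : (p : ℝ) * (4 * (D.u : ℝ) - 1) * (2 * (D.u : ℝ) * v 2 + v 3) ^ 2 = 0 := by linarith
  have e2 : (D.u : ℝ) * ((4 * (D.u : ℝ) - 1) * v 1 + 2 * (p : ℝ) * (D.σ : ℝ) * v 3) ^ 2 = 0 := by
    linarith
  have e1 : (4 * (D.u : ℝ) - 1) * (D.u : ℝ) * (2 * v 0 + v 1) ^ 2 = 0 := by linarith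
  have v3 : v 3 = 0 := by
    have := (mul_eq_zero.mp e4).resolve_left hp.ne'
    exact pow_eq_zero_iff (two_ne_zero) |>.mp this
  have v2 : v 2 = 0 := by
    have h1 := (mul_eq_zero.mp e3).resolve_left (by positivity)
    have h2 : 2 * (D.u : ℝ) * v 2 + v 3 = 0 := pow_eq_zero_iff (two_ne_zero) |>.mp h1
    rw [v3, add_zero] at h2
    exact (mul_eq_zero.mp h2).resolve_left (by positivity)
  have v1 : v 1 = 0 := by
    have h1 := (mul_eq_zero.mp e2).resolve_left hu.ne'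
    have h2 : (4 * (D.u : ℝ) - 1) * v 1 + 2 * (p : ℝ) * (D.σ : ℝ) * v 3 = 0 :=
      pow_eq_zero_iff (two_ne_zero) |>.mp h1
    rw [v3, mul_zero, add_zero] at h2
    exact (mul_eq_zero.mp h2).resolve_left hr.ne'
  have v0 : v 0 = 0 := by
    have h1 := (mul_eq_zero.mp e1).resolve_left (by positivity)
    have h2 : 2 * v 0 + v 1 = 0 := pow_eq_zero_iff (two_ne_zero) |>.mp h1
    rw [v1, add_zero] at h2
    exact (mul_eq_zero.mp h2).resolve_left two_ne_zero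
  funext i
  fin_cases i
  · exact v0
  · exact v1
  · exact v2
  · exact v3

theorem TH2_Q_pos (v : Fin 4 → ℝ) (hv : v ≠ 0) : 0 < D.Q v := by
  by_contra h
  exact hv (D.TH2_eq_zero_of_Q_le v (not_lt.mp h))

theorem TH2_QZ_nonneg (x : Fin 4 → ℤ) : 0 ≤ D.QZ x := by
  have h := D.TH2_Q_nonneg (fun i => (x i : ℝ))
  rw [← D.TH2_Q_intCast] at h
  exact_mod_cast h

theorem TH2_QZ_eq_zero_iff (x : Fin 4 → ℤ) : D.QZ x = 0 ↔ x = 0 := by
  constructor
  · intro h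
    have h1 : D.Q (fun i => (x i : ℝ)) ≤ 0 := by
      rw [← D.TH2_Q_intCast, h]
      simp
    have h2 := D.TH2_eq_zero_of_Q_le _ h1
    funext i
    have h3 := congrFun h2 i
    simpa using h3
  · rintro rfl
    simp [QZ, form]

end Aux

/-! ### The interfaces -/

/-- **TH2a.** `Q` is positive definite. -/
theorem ifacePos {p : ℕ} (D : Aux p) : D.IfacePos :=
  TH2_exists_le_of_homogeneous D.Q D.TH2_continuous_Q D.TH2_Q_smul D.TH2_Q_pos

/-- **TH2b.** `Q` is congruent to `q2 / p` modulo `1` on the class `(a, b)`. -/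
theorem ifaceCong {p : ℕ} (D : Aux p) : D.IfaceCong := by
  intro a b x
  refine ⟨D.QZ x + (D.σ * x 1 * (b.val : ℤ) + 2 * D.u * x 2 * (a.val : ℤ) + x 2 * (b.val : ℤ) +
    x 3 * (a.val : ℤ) + 2 * D.θ * x 3 * (b.val : ℤ)), ?_⟩
  have hp : (p : ℝ) ≠ 0 := by exact_mod_cast D.TH2_p_ne_zero
  simp only [Aux.expo, Aux.Q, Aux.QZ, Aux.form, shift]
  push_cast
  field_simp
  ring

/-- **TH2c.** `Q` takes nonnegative integer values on `ℤ⁴` and vanishes only at `0`. -/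
theorem ifaceInt {p : ℕ} (D : Aux p) : D.IfaceInt := by
  refine ⟨fun x => ?_, fun x => ?_⟩
  · rw [← D.TH2_Q_intCast]
    have h := D.TH2_QZ_nonneg x
    simp only [Aux.QN]
    have h2 : (((D.QZ x).toNat : ℕ) : ℤ) = D.QZ x := Int.toNat_of_nonneg h
    exact_mod_cast congrArg (fun z : ℤ => (z : ℝ)) h2
  · simp only [Aux.QN]
    rw [← D.TH2_QZ_eq_zero_iff]
    have h := D.TH2_QZ_nonneg x
    omega

end Fermat.Agent.S16.Theta
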