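import Mathlib
import Fermat.Agent.S16.Theta.InvDefs
import Fermat.Agent.S16.Theta.Lattice
import Fermat.Agent.S16.ThetaInv

/-!
# P-EIS (S16), lower bound via theta series: theta inversion for the lattice of `D`

`Aux.IfaceInv` from the general theta inversion theorem `TI97_main` (module TH3a), applied to
`A = (Gram)⁻¹`, `B = Gram`, followed by the unimodular substitution `x = V n` in the dual sum.
-/

set_option autoImplicit false

open Complex UpperHalfPlane
open scoped Real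

noncomputable section

namespace Fermat.Agent.S16.Theta

namespace INV91

variable {p : ℕ} (D : Aux p)

lemma relR : (4 * (D.u : ℝ) - 1) * (D.θ : ℝ) = (p : ℝ) * (D.σ : ℝ) ^ 2 + 1 := by
  exact_mod_cast D.rel

include D in
lemma p_pos : (0 : ℝ) < ((p : ℕ) : ℝ) := by
  have := D.TH2_p_pos
  positivity

include D in
lemma p_ne : ((p : ℕ) : ℝ) ≠ 0 := (p_pos D).ne'

/-! ### the Gram matrix -/

lemma qf_gram (v : Fin 4 → ℝ) : TI97_qf D.gram v = 2 * D.Q v := by
  simp [TI97_qf, Fin.sum_univ_four, Aux.gram, Aux.Q, Aux.form]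
  ring

lemma isPD_gram : TI97_IsPD D.gram := by
  refine ⟨fun i j => ?_, fun x hx => ?_⟩
  · fin_cases i <;> fin_cases j <;> simp [Aux.gram]
  · rw [qf_gram]
    have := D.TH2_Q_pos x hx
    linarith

lemma det_gram : D.gram.det = (p : ℝ) ^ 2 := by
  have h := relR D
  simp [Matrix.det_succ_row_zero, Fin.sum_univ_succ, Aux.gram, Fin.succAbove]
  grind

lemma gram_mul_gramInv : D.gram * D.gramInv = 1 := by
  have h := relR D
  have hp := p_ne D
  ext i j
  fin_cases i <;> fin_cases j <;>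
    simp [Aux.gram, Aux.gramInv, Matrix.mul_apply, Fin.sum_univ_four] <;>
    (try field_simp) <;> grind

lemma gramInv_mul_gram : D.gramInv * D.gram = 1 :=
  mul_eq_one_comm.1 (gram_mul_gramInv D)

lemma isPD_gramInv : TI97_IsPD D.gramInv :=
  TI97_isPD_inv _ _ (isPD_gram D) (gram_mul_gramInv D)

lemma det_gramInv : D.gramInv.det = ((p : ℝ) ^ 2)⁻¹ := by
  have h := congrArg Matrix.det (gram_mul_gramInv D)
  rw [Matrix.det_mul, Matrix.det_one, det_gram] at h
  exact eq_inv_of_mul_eq_one_right h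

lemma sqrt_det_gramInv : Real.sqrt D.gramInv.det = ((p : ℕ) : ℝ)⁻¹ := by
  rw [det_gramInv, ← inv_pow, Real.sqrt_sq (inv_nonneg.mpr (p_pos D).le)]

/-- the constant of theta inversion. -/
lemma const_eq (z : ℂ) (hz : z ≠ 0) :
    TI97_const 4 D.gramInv z = -((p : ℕ) : ℂ) / z ^ 2 := by
  have h1 : ((-Complex.I * z) ^ (1 / 2 : ℂ)) ^ 4 = -z ^ 2 := by
    have := Complex.cpow_nat_mul (-Complex.I * z) 4 (1 / 2 : ℂ)
    rw [← this]
    have h2 : ((4 : ℕ) : ℂ) * (1 / 2 : ℂ) = ((2 : ℕ) : ℂ) := by push_cast; norm_num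
    rw [h2, Complex.cpow_natCast]
    ring_nf
    rw [Complex.I_sq]
    ring
  rw [TI97_const, h1, sqrt_det_gramInv]
  have hp : ((p : ℕ) : ℂ) ≠ 0 := by exact_mod_cast (p_ne D)
  push_cast
  field_simp

/-! ### the unimodular substitution -/

lemma matW_mul_matV : D.matW * D.matV = 1 := by
  have h := D.rel
  ext i j
  fin_cases i <;> fin_cases j <;>
    simp [Aux.matW, Aux.matV, Matrix.mul_apply, Fin.sum_univ_four] <;> grind

lemma matV_mul_matW : D.matV * D.matW = 1 :=
  mul_eq_one_comm.1 (matW_mul_matV D)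

/-- the substitution `x = V n` on `ℤ⁴`. -/
def substV : (Fin 4 → ℤ) ≃ (Fin 4 → ℤ) where
  toFun := fun n => D.matV.mulVec n
  invFun := fun m => D.matW.mulVec m
  left_inv := fun n => by
    simp only [Matrix.mulVec_mulVec, matW_mul_matV, Matrix.one_mulVec]
  right_inv := fun m => by
    simp only [Matrix.mulVec_mulVec, matV_mul_matW, Matrix.one_mulVec]

lemma qf_gramInv_substV (n : Fin 4 → ℤ) :
    TI97_qf D.gramInv (fun i => ((substV D n i : ℤ) : ℝ)) = 2 * D.Q (Aux.dualVec (p := p) n) := by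
  have h := relR D
  have hp := p_ne D
  simp [TI97_qf, Fin.sum_univ_four, substV, Aux.matV, Aux.gramInv, Aux.Q, Aux.form,
    Aux.dualVec, dotProduct]
  field_simp
  grind

lemma pair_substV (n : Fin 4 → ℤ) (k : Fin 4 → ℝ) :
    ∑ i, ((substV D n i : ℤ) : ℂ) * ((k i : ℝ) : ℂ) = ((D.pairV n k : ℝ) : ℂ) := by
  simp [Fin.sum_univ_four, substV, Aux.matV, Aux.pairV, dotProduct]

/-- the term of the theta series of `(Gram)⁻¹` at `V n` is the dual term. -/
lemma term_substV (k : Fin 4 → ℝ) (z : ℂ) (n : Fin 4 → ℤ) :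
    TI97_term D.gramInv z (fun i => ((k i : ℝ) : ℂ)) (substV D n) = D.dualTerm k z n := by
  rw [TI97_term, Aux.dualTerm, TI97_qf_cast, qf_gramInv_substV, pair_substV]
  congr 1
  push_cast
  ring

/-- the dual term of `Gram` is the term of the theta function at `-1/z`. -/
lemma dual_eq (k : Fin 4 → ℝ) (z : ℍ) (y : Fin 4 → ℤ) :
    TI97_dual D.gram (z : ℂ) (fun i => ((k i : ℝ) : ℂ)) y =
      h19th_term (fun x : Fin 4 → ℤ => D.Q fun i => (x i : ℝ) + k i) y
        ((ModularGroup.S • z : ℍ) : ℂ) := by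
  have hz : (z : ℂ) ≠ 0 := z.ne_zero
  have h1 : (∑ i, ∑ j, (D.gram i j : ℂ) * ((y i : ℂ) + ((k i : ℝ) : ℂ))
      * ((y j : ℂ) + ((k j : ℝ) : ℂ))) = ((2 * D.Q (fun i => (y i : ℝ) + k i) : ℝ) : ℂ) := by
    rw [← qf_gram, TI97_qf]
    push_cast
    rfl
  have hS : ((ModularGroup.S • z : ℍ) : ℂ) = (-(z : ℂ))⁻¹ := by
    rw [UpperHalfPlane.modular_S_smul]
  rw [TI97_dual, h19th_term, h1, hS]
  congr 1
  push_cast
  field_simp

end INV91

open INV91 in
/-- **Theta inversion for the lattice of `D`.** -/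
theorem ifaceInv_h91 {p : ℕ} (D : Aux p) : D.IfaceInv := by
  intro k z
  have hz : (z : ℂ) ≠ 0 := z.ne_zero
  have hp : ((p : ℕ) : ℂ) ≠ 0 := by exact_mod_cast (p_ne D)
  have hsum : Summable (D.dualTerm k (z : ℂ)) := by
    have h := (TI97_summable_term D.gramInv (isPD_gramInv D) z.im_pos
      (fun i => ((k i : ℝ) : ℂ)))
    have h2 := (substV D).summable_iff.mpr h
    refine h2.congr fun n => ?_
    exact term_substV D k z n
  refine ⟨hsum, ?_⟩
  have hmain := TI97_main 4 D.gramInv D.gram (isPD_gramInv D) (gramInv_mul_gram D) (z : ℂ)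
    z.im_pos (fun i => ((k i : ℝ) : ℂ))
  rw [const_eq D z hz] at hmain
  have h1 : h19th_theta (fun x : Fin 4 → ℤ => D.Q fun i => (x i : ℝ) + k i)
      (ModularGroup.S • z) = ∑' y, TI97_dual D.gram (z : ℂ) (fun i => ((k i : ℝ) : ℂ)) y := by
    rw [h19th_theta]
    exact tsum_congr fun y => (dual_eq D k z y).symm
  have h2 : ∑' n : Fin 4 → ℤ, D.dualTerm k (z : ℂ) n =
      ∑' x, TI97_term D.gramInv (z : ℂ) (fun i => ((k i : ℝ) : ℂ)) x := by
    rw [← (substV D).tsum_eq (TI97_term D.gramInv (z : ℂ) (fun i => ((k i : ℝ) : ℂ)))]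
    exact tsum_congr fun n => (term_substV D k z n).symm
  rw [h1, h2, hmain]
  field_simp

end Fermat.Agent.S16.Theta
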