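import Mathlib
import Fermat.Agent.S16.Theta.InvDefs

/-!
# P-EIS (S16), lower bound via theta series: module TH3b

From theta inversion with a real characteristic (`Aux.IfaceInv`) to the `S`-transformation of the
theta vector (`Aux.IfaceS`): the dual sum over `n ∈ ℤ⁴` is split according to the classes of
`(n₂, n₃)` modulo `p`.
-/

set_option autoImplicit false

open Complex UpperHalfPlane
open scoped Real

noncomputable section

namespace Fermat.Agent.S16.Theta

namespace TH3b

variable {p : ℕ} [Fact p.Prime]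

/-- the splitting `ℤ⁴ ≃ (ℤ/p)² × ℤ⁴`, `n = (x₀, x₁, p x₂ + a, p x₃ + b)`. -/
def split : (ZMod p × ZMod p) × (Fin 4 → ℤ) ≃ (Fin 4 → ℤ) where
  toFun := fun c => ![c.2 0, c.2 1, (p : ℤ) * c.2 2 + (c.1.1.val : ℤ),
    (p : ℤ) * c.2 3 + (c.1.2.val : ℤ)]
  invFun := fun n => (((n 2 : ZMod p), (n 3 : ZMod p)), ![n 0, n 1, n 2 / (p : ℤ), n 3 / (p : ℤ)])
  left_inv := by
    rintro ⟨⟨a, b⟩, x⟩
    have hp : (0 : ℤ) < (p : ℤ) := by exact_mod_cast (Fact.out : p.Prime).pos
    have ha1 : (0 : ℤ) ≤ (a.val : ℤ) := by positivity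
    have hb1 : (0 : ℤ) ≤ (b.val : ℤ) := by positivity
    have ha2 : ((a.val : ℤ)) < (p : ℤ) := by exact_mod_cast ZMod.val_lt a
    have hb2 : ((b.val : ℤ)) < (p : ℤ) := by exact_mod_cast ZMod.val_lt b
    have e1 : ((p : ℤ) * x 2 + (a.val : ℤ)) / (p : ℤ) = x 2 := by
      rw [add_comm, Int.add_mul_ediv_left _ _ hp.ne', Int.ediv_eq_zero_of_lt ha1 ha2, zero_add]
    have e2 : ((p : ℤ) * x 3 + (b.val : ℤ)) / (p : ℤ) = x 3 := by
      rw [add_comm, Int.add_mul_ediv_left _ _ hp.ne', Int.ediv_eq_zero_of_lt hb1 hb2, zero_add]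
    refine Prod.ext (Prod.ext ?_ ?_) ?_
    · simp
    · simp
    · funext i
      fin_cases i
      · simp
      · simp
      · simpa using e1
      · simpa using e2
  right_inv := by
    intro n
    have h2 : (p : ℤ) * (n 2 / (p : ℤ)) + (((n 2 : ZMod p)).val : ℤ) = n 2 := by
      rw [ZMod.val_intCast]; exact Int.mul_ediv_add_emod _ _
    have h3 : (p : ℤ) * (n 3 / (p : ℤ)) + (((n 3 : ZMod p)).val : ℤ) = n 3 := by
      rw [ZMod.val_intCast]; exact Int.mul_ediv_add_emod _ _
    funext i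
    fin_cases i
    · simp
    · simp
    · simpa using h2
    · simpa using h3

variable (D : Aux p)

lemma p_ne_zero_real : ((p : ℕ) : ℝ) ≠ 0 := by
  exact_mod_cast (Fact.out : p.Prime).ne_zero

/-- the dual vector of a split index is the shifted lattice vector. -/
lemma dualVec_split (a' b' : ZMod p) (x : Fin 4 → ℤ) :
    Aux.dualVec (p := p) (split ((a', b'), x)) = fun i => (x i : ℝ) + shift a' b' i := by
  have hp := p_ne_zero_real (p := p)
  funext i
  fin_cases i
  · simp [Aux.dualVec, split, shift]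
  · simp [Aux.dualVec, split, shift]
  · simp [Aux.dualVec, split, shift]
    field_simp
  · simp [Aux.dualVec, split, shift]
    field_simp

/-- the integer representing `β2`. -/
def betaZ (a b a' b' : ZMod p) : ℤ :=
  2 * D.u * (a.val : ℤ) * (a'.val : ℤ) + (a.val : ℤ) * (b'.val : ℤ) + (a'.val : ℤ) * (b.val : ℤ)
    + 2 * D.θ * (b.val : ℤ) * (b'.val : ℤ)

lemma betaZ_cast (a b a' b' : ZMod p) : ((betaZ D a b a' b' : ℤ) : ZMod p) = D.β2 a b a' b' := by
  simp [betaZ, Aux.β2]

/-- the pairing of a split index with a shift vector is an integer plus `β / p`. -/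
lemma pairV_split (a b a' b' : ZMod p) (x : Fin 4 → ℤ) :
    ∃ M : ℤ, D.pairV (split ((a', b'), x)) (shift a b) =
      (M : ℝ) + (betaZ D a b a' b' : ℝ) / (p : ℝ) := by
  have hp := p_ne_zero_real (p := p)
  refine ⟨2 * D.u * x 2 * (a.val : ℤ) + x 3 * (a.val : ℤ) + D.σ * x 1 * (b.val : ℤ)
    + x 2 * (b.val : ℤ) + 2 * D.θ * x 3 * (b.val : ℤ), ?_⟩
  simp only [Aux.pairV, split, shift, betaZ, Equiv.coe_fn_mk]
  simp
  field_simp
  ring

/-- the phase attached to the pairing. -/
lemma cexp_pairV_split (a b a' b' : ZMod p) (x : Fin 4 → ℤ) :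
    cexp (2 * π * Complex.I * (D.pairV (split ((a', b'), x)) (shift a b) : ℂ)) =
      (ZMod.stdAddChar (D.β2 a b a' b') : ℂ) := by
  obtain ⟨M, hM⟩ := pairV_split D a b a' b' x
  rw [hM, ← betaZ_cast, ZMod.stdAddChar_coe]
  push_cast
  rw [mul_add, Complex.exp_add]
  have h1 : cexp (2 * π * Complex.I * (M : ℂ)) = 1 := by
    have := Complex.exp_int_mul_two_pi_mul_I M
    rw [← this]; congr 1; ring
  rw [h1, one_mul]
  congr 1
  ring

/-- the term identity. -/
lemma dualTerm_split (a b a' b' : ZMod p) (x : Fin 4 → ℤ) (z : ℂ) :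
    D.dualTerm (shift a b) z (split ((a', b'), x)) =
      (ZMod.stdAddChar (D.β2 a b a' b') : ℂ) * h19th_term (D.expo a' b') x z := by
  rw [Aux.dualTerm, Complex.exp_add, cexp_pairV_split, dualVec_split, mul_comm]
  rfl

end TH3b

open TH3b in
/-- **TH3b.** Theta inversion with real characteristics implies the `S`-transformation of the
theta vector. -/
theorem ifaceS_of_inv {p : ℕ} [Fact p.Prime] (D : Aux p) (hinv : D.IfaceInv) : D.IfaceS := by
  intro a b z
  obtain ⟨hsum, heq⟩ := hinv (shift a b) z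
  have h1 : D.vartheta a b (ModularGroup.S • z) =
      -((z : ℂ) ^ 2 / (p : ℂ)) * ∑' n : Fin 4 → ℤ, D.dualTerm (shift a b) (z : ℂ) n := heq
  rw [h1]
  congr 1
  rw [← (split (p := p)).tsum_eq]
  have hs' : Summable (fun c => D.dualTerm (shift a b) (z : ℂ) (split (p := p) c)) :=
    (split (p := p)).summable_iff.mpr hsum
  rw [hs'.tsum_prod' (fun c => hs'.prod_factor c), tsum_fintype, Fintype.sum_prod_type]
  refine Finset.sum_congr rfl fun a' _ => Finset.sum_congr rfl fun b' _ => ?_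
  simp_rw [dualTerm_split]
  rw [tsum_mul_left]
  rfl

end Fermat.Agent.S16.Theta
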