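import Mathlib
import Fermat.Agent.S16.Theta.H19ThetaCore

/-!
# P-EIS, lower bound via theta series, module TH6 (analysis): lattice sums (helper19)

Gaussian sums over `ℤⁿ` converge: for a function `Q` on `ℝⁿ` with `Q y ≥ c ∑ yᵢ²`, `c > 0`, and a
shift `h ∈ ℝⁿ`, the exponent family `x ↦ Q (x + h)`, `x ∈ ℤⁿ`, is `h19th_Good`.
-/

set_option autoImplicit false

open Complex
open scoped Real

noncomputable section

namespace Fermat.Agent.S16.Theta

/-- one-dimensional shifted Gaussian sums converge. -/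
theorem h19th_summable_gauss_one {a : ℝ} (ha : 0 < a) (h : ℝ) :
    Summable fun n : ℤ => Real.exp (-a * ((n : ℝ) + h) ^ 2) := by
  have hτ : 0 < ((a / π : ℝ) * I : ℂ).im := by
    simp only [mul_im, ofReal_re, I_im, mul_one, ofReal_im, I_re, mul_zero, add_zero]
    positivity
  have hs := ((summable_jacobiTheta₂_term_iff ((a * h / π : ℝ) * I) ((a / π : ℝ) * I)).2 hτ).norm
  have hpi : π ≠ 0 := Real.pi_ne_zero
  have hfun : (fun n : ℤ => Real.exp (-a * ((n : ℝ) + h) ^ 2))
      = fun n : ℤ => Real.exp (-a * h ^ 2) *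
          ‖jacobiTheta₂_term n ((a * h / π : ℝ) * I) ((a / π : ℝ) * I)‖ := by
    funext n
    rw [norm_jacobiTheta₂_term, ← Real.exp_add]
    congr 1
    simp only [mul_im, ofReal_re, I_im, mul_one, ofReal_im, I_re, mul_zero, add_zero]
    field_simp
    ring
  rw [hfun]
  exact hs.mul_left _

/-- finite products of summable nonnegative families are summable on the product. -/
theorem h19th_summable_pi_prod : ∀ (n : ℕ) (f : Fin n → ℤ → ℝ), (∀ i k, 0 ≤ f i k) →
    (∀ i, Summable (f i)) → Summable (fun x : Fin n → ℤ => ∏ i, f i (x i)) := by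
  intro n
  induction n with
  | zero =>
    intro f _ _
    exact summable_of_hasFiniteSupport (Set.toFinite _)
  | succ n ih =>
    intro f hf0 hf
    have hg : Summable (fun y : Fin n → ℤ => ∏ i : Fin n, f i.succ (y i)) :=
      ih (fun i => f i.succ) (fun i k => hf0 _ k) fun i => hf _
    have hg0 : (0 : (Fin n → ℤ) → ℝ) ≤ fun y : Fin n → ℤ => ∏ i : Fin n, f i.succ (y i) :=
      fun y => Finset.prod_nonneg fun i _ => hf0 _ _
    have hf00 : (0 : ℤ → ℝ) ≤ f 0 := fun k => hf0 0 k
    have h1 : Summable fun p : ℤ × (Fin n → ℤ) => f 0 p.1 * ∏ i : Fin n, f i.succ (p.2 i) :=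
      Summable.mul_of_nonneg (f := f 0)
        (g := fun y : Fin n → ℤ => ∏ i : Fin n, f i.succ (y i)) (hf 0) hg hf00 hg0
    rw [← (Fin.consEquiv fun _ : Fin (n + 1) => ℤ).summable_iff]
    refine h1.congr fun p => ?_
    simp only [Function.comp_apply, Fin.consEquiv_apply, Fin.prod_univ_succ, Fin.cons_zero,
      Fin.cons_succ]

/-- shifted Gaussian sums over `ℤⁿ` converge. -/
theorem h19th_summable_gauss {n : ℕ} {a : ℝ} (ha : 0 < a) (h : Fin n → ℝ) :
    Summable fun x : Fin n → ℤ => Real.exp (-a * ∑ i, ((x i : ℝ) + h i) ^ 2) := by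
  have h1 := h19th_summable_pi_prod n (fun i k => Real.exp (-a * ((k : ℝ) + h i) ^ 2))
    (fun i k => (Real.exp_pos _).le) (fun i => h19th_summable_gauss_one ha (h i))
  refine h1.congr fun x => ?_
  rw [← Real.exp_sum, Finset.mul_sum]

/-- **Summability for positive definite forms.**  If `Q y ≥ c ∑ yᵢ²` with `c > 0`, then the
exponent family `x ↦ Q (x + h)` on `ℤⁿ` is good. -/
theorem h19th_good_lattice {n : ℕ} (Q : (Fin n → ℝ) → ℝ) {c : ℝ} (hc : 0 < c)
    (hQ : ∀ y, c * ∑ i, y i ^ 2 ≤ Q y) (h : Fin n → ℝ) :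
    h19th_Good fun x : Fin n → ℤ => Q fun i => (x i : ℝ) + h i := by
  refine ⟨fun x => le_trans ?_ (hQ _), fun t ht => ?_⟩
  · exact mul_nonneg hc.le (Finset.sum_nonneg fun i _ => sq_nonneg _)
  · refine Summable.of_nonneg_of_le (fun x => (Real.exp_pos _).le) (fun x => ?_)
      (h19th_summable_gauss (mul_pos ht hc) h)
    apply Real.exp_le_exp.mpr
    have := hQ fun i => (x i : ℝ) + h i
    have h2 : t * (c * ∑ i, ((x i : ℝ) + h i) ^ 2) ≤ t * Q fun i => (x i : ℝ) + h i :=
      mul_le_mul_of_nonneg_left this ht.le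
    linarith

end Fermat.Agent.S16.Theta
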