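import Fermat.Agent.S16.Theta.Defs
import Fermat.Agent.S16.Theta.H19ThetaLattice

/-!
# P-EIS (S16), lower bound via theta series: module TH6 (analysis)

Instantiation of the abstract analytic core (`H19ThetaCore`, `H19ThetaLattice`) at the theta
vector of `Defs.lean`:

* `Aux.ifaceGood` : `IfacePos → IfaceGood` (summability);
* `Aux.ifaceT` : `IfaceCong → IfaceT` (the `T`-action);
* `Aux.ifaceQExp` : `IfacePos → IfaceInt → IfaceQExp` (`q`-expansion of `Θ`, `c 0 = 1`,
  `c n` even);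
* holomorphy and boundedness at `i∞` of `ϑ_{a,b}`, `Θ` and `Φ_m`.
-/

set_option autoImplicit false

open Complex UpperHalfPlane
open scoped Real ModularForm MatrixGroups Manifold Asymptotics

noncomputable section

namespace Fermat.Agent.S16.Theta

namespace Aux

variable {p : ℕ} (D : Aux p)

/-- **TH6a.** Summability of the exponent families. -/
theorem ifaceGood (h : D.IfacePos) : D.IfaceGood := by
  obtain ⟨c, hc, hQ⟩ := h
  intro a b
  exact h19th_good_lattice D.Q hc hQ (shift a b)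

theorem shift_zero_zero (i : Fin 4) : shift (0 : ZMod p) 0 i = 0 := by
  fin_cases i <;> simp [shift]

theorem expo_zero_zero (hint : D.IfaceInt) :
    D.expo 0 0 = fun x : Fin 4 → ℤ => ((D.QN x : ℕ) : ℝ) := by
  funext x
  rw [hint.1 x]
  unfold expo
  congr 1
  funext i
  rw [shift_zero_zero, add_zero]

theorem good_QN (hpos : D.IfacePos) (hint : D.IfaceInt) :
    h19th_Good fun x : Fin 4 → ℤ => ((D.QN x : ℕ) : ℝ) := by
  rw [← D.expo_zero_zero hint]
  exact D.ifaceGood hpos 0 0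

theorem theta0_eq_vartheta (hint : D.IfaceInt) : D.theta0 = D.vartheta 0 0 := by
  unfold theta0 vartheta
  rw [D.expo_zero_zero hint]

theorem QN_neg (x : Fin 4 → ℤ) : D.QN (-x) = D.QN x := by
  unfold QN QZ form
  congr 1
  simp only [Pi.neg_apply]
  ring

/-- **TH6b.** The `T`-action on the theta vector. -/
theorem ifaceT [NeZero p] (h : D.IfaceCong) : D.IfaceT := by
  intro a b z
  have key := h19th_vadd_one (w := D.expo a b)
    (((D.u * (a.val : ℤ) ^ 2 + (a.val : ℤ) * (b.val : ℤ) + D.θ * (b.val : ℤ) ^ 2 : ℤ) : ℝ)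
      / (p : ℝ)) (h a b) z
  have hq : D.q2 a b
      = ((D.u * (a.val : ℤ) ^ 2 + (a.val : ℤ) * (b.val : ℤ) + D.θ * (b.val : ℤ) ^ 2 : ℤ) :
          ZMod p) := by
    unfold q2
    push_cast
    rw [ZMod.natCast_zmod_val, ZMod.natCast_zmod_val]
  show h19th_theta (D.expo a b) ((1 : ℝ) +ᵥ z)
    = (ZMod.stdAddChar (D.q2 a b) : ℂ) * h19th_theta (D.expo a b) z
  rw [key, hq, ZMod.stdAddChar_coe]
  congr 2
  push_cast
  ring

/-- **TH6c.** The `q`-expansion of `Θ`. -/
theorem ifaceQExp [NeZero p] (hpos : D.IfacePos) (hint : D.IfaceInt) : D.IfaceQExp := by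
  have hgood := D.good_QN hpos hint
  refine ⟨D.theta0_eq_vartheta hint, h19th_rep D.QN, ?_, ?_, ?_⟩
  · exact h19th_rep_zero 0 hint.2
  · intro n hn
    refine h19th_even_rep hgood (fun x => -x) (fun x => neg_neg x) D.QN_neg ?_
    intro x hx hfix
    have hx0 : x = 0 := by
      funext i
      have h1 := congrFun hfix i
      simp only [Pi.neg_apply, Pi.zero_apply] at h1 ⊢
      omega
    rw [hx0, (hint.2 0).2 rfl] at hx
    omega
  · intro z
    exact h19th_hasSum_qParam hgood z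

/-! ### Holomorphy and boundedness -/

theorem mdifferentiable_vartheta (hpos : D.IfacePos) (a b : ZMod p) :
    MDifferentiable 𝓘(ℂ) 𝓘(ℂ) (D.vartheta a b) :=
  h19th_mdifferentiable (D.ifaceGood hpos a b)

theorem isBoundedAtImInfty_vartheta (hpos : D.IfacePos) (a b : ZMod p) :
    UpperHalfPlane.IsBoundedAtImInfty (D.vartheta a b) :=
  h19th_isBoundedAtImInfty (D.ifaceGood hpos a b)

theorem mdifferentiable_theta0 (hpos : D.IfacePos) (hint : D.IfaceInt) :
    MDifferentiable 𝓘(ℂ) 𝓘(ℂ) D.theta0 :=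
  h19th_mdifferentiable (D.good_QN hpos hint)

theorem isBoundedAtImInfty_theta0 (hpos : D.IfacePos) (hint : D.IfaceInt) :
    UpperHalfPlane.IsBoundedAtImInfty D.theta0 :=
  h19th_isBoundedAtImInfty (D.good_QN hpos hint)

theorem Phi_eq_sum [NeZero p] (m : ZMod p) :
    D.Phi m = fun z => ∑ a : ZMod p, ∑ b : ZMod p,
      (-(1 / (p : ℂ)) * (ZMod.stdAddChar (m * D.q2 a b) : ℂ)) * D.vartheta a b z := by
  funext z
  unfold Phi
  rw [Finset.mul_sum]
  refine Finset.sum_congr rfl fun a _ => ?_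
  rw [Finset.mul_sum]
  refine Finset.sum_congr rfl fun b _ => ?_
  ring

theorem mdifferentiable_Phi [NeZero p] (hpos : D.IfacePos) (m : ZMod p) :
    MDifferentiable 𝓘(ℂ) 𝓘(ℂ) (D.Phi m) := by
  rw [D.Phi_eq_sum m, UpperHalfPlane.mdifferentiable_iff]
  have h : ∀ a b : ZMod p, DifferentiableOn ℂ (D.vartheta a b ∘ UpperHalfPlane.ofComplex)
      {z : ℂ | 0 < z.im} := fun a b =>
    UpperHalfPlane.mdifferentiable_iff.mp (D.mdifferentiable_vartheta hpos a b)
  have h2 : DifferentiableOn ℂ (fun z : ℂ => ∑ a : ZMod p, ∑ b : ZMod p,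
      (-(1 / (p : ℂ)) * (ZMod.stdAddChar (m * D.q2 a b) : ℂ))
        * (D.vartheta a b ∘ UpperHalfPlane.ofComplex) z) {z : ℂ | 0 < z.im} :=
    DifferentiableOn.fun_sum fun a _ => DifferentiableOn.fun_sum fun b _ =>
      (h a b).const_mul _
  exact h2

theorem isBoundedAtImInfty_Phi [NeZero p] (hpos : D.IfacePos) (m : ZMod p) :
    UpperHalfPlane.IsBoundedAtImInfty (D.Phi m) := by
  rw [D.Phi_eq_sum m]
  have h : ∀ a b : ZMod p, (D.vartheta a b) =O[UpperHalfPlane.atImInfty] (1 : ℍ → ℝ) :=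
    fun a b => D.isBoundedAtImInfty_vartheta hpos a b
  show (fun z : ℍ => ∑ a : ZMod p, ∑ b : ZMod p,
      (-(1 / (p : ℂ)) * (ZMod.stdAddChar (m * D.q2 a b) : ℂ)) * D.vartheta a b z)
    =O[UpperHalfPlane.atImInfty] (1 : ℍ → ℝ)
  refine Asymptotics.IsBigO.fun_sum fun a _ => Asymptotics.IsBigO.fun_sum fun b _ => ?_
  exact (h a b).const_mul_left _

end Aux

end Fermat.Agent.S16.Theta
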