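import Mathlib

/-!
# P-EIS, LB-theta, TH1: the auxiliary prime

For every odd prime `p` there is a prime `r ≡ 3 mod 4`, `r ≠ p`, such that `-r` is a quadratic
non-residue modulo `p` and `-p` is a square modulo `r`.
-/

namespace Fermat.Agent.S16.Theta

namespace AuxPrime

/-- A natural number in a prescribed nonzero residue class mod `p` and `≡ 3 mod 4`,
coprime to `4 * p`. -/
lemma exists_class (p : ℕ) [Fact p.Prime] (hp : p ≠ 2) (a : ZMod p) (ha : a ≠ 0) :
    ∃ c : ℕ, c % 4 = 3 ∧ (c : ZMod p) = a ∧ c.Coprime (4 * p) := by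
  have hpp : p.Prime := Fact.out
  have hodd : Odd p := hpp.odd_of_ne_two hp
  have hcop : Nat.Coprime 4 p := by
    have : Nat.Coprime 2 p := (Nat.coprime_primes Nat.prime_two hpp).mpr (Ne.symm hp)
    have h4 : (4 : ℕ) = 2 ^ 2 := by norm_num
    rw [h4]
    exact Nat.Coprime.pow_left 2 this
  obtain ⟨c, hc4, hcp⟩ := Nat.chineseRemainder hcop 3 a.val
  refine ⟨c, ?_, ?_, ?_⟩
  · have := hc4
    unfold Nat.ModEq at this
    omega
  · have h1 : (c : ZMod p) = (a.val : ZMod p) := (ZMod.natCast_eq_natCast_iff c a.val p).mpr hcp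
    rw [h1, ZMod.natCast_val, ZMod.cast_id', id]
  · have hc_p : (c : ZMod p) = a := by
      have h1 : (c : ZMod p) = (a.val : ZMod p) := (ZMod.natCast_eq_natCast_iff c a.val p).mpr hcp
      rw [h1, ZMod.natCast_val, ZMod.cast_id', id]
    apply Nat.Coprime.mul_right
    · have h3 : c % 4 = 3 := by
        have := hc4
        unfold Nat.ModEq at this
        omega
      have h2 : Nat.Coprime c 2 :=
        Nat.Coprime.symm ((Nat.Prime.coprime_iff_not_dvd Nat.prime_two).mpr (by omega))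
      have h4 : (4 : ℕ) = 2 ^ 2 := by norm_num
      rw [h4]
      exact Nat.Coprime.pow_right 2 h2
    · rw [Nat.coprime_comm, hpp.coprime_iff_not_dvd]
      intro hdvd
      apply ha
      rw [← hc_p]
      exact (ZMod.natCast_eq_zero_iff c p).mpr hdvd

end AuxPrime

/-- **TH1.** For every odd prime `p` there are a prime `r ≡ 3 mod 4`, `r ≠ p`, with
`(-r / p) = -1`, and an integer `s` with `r ∣ s ^ 2 + p`. -/
theorem exists_aux_prime (p : ℕ) [Fact p.Prime] (hp : p ≠ 2) :
    ∃ r : ℕ, r.Prime ∧ r % 4 = 3 ∧ r ≠ p ∧ legendreSym p (-(r : ℤ)) = -1 ∧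
      ∃ s : ℤ, (r : ℤ) ∣ s ^ 2 + p := by
  have hpp : p.Prime := Fact.out
  -- a non-residue mod p
  have hchar : ringChar (ZMod p) ≠ 2 := by
    rw [ZMod.ringChar_zmod_n]; exact hp
  obtain ⟨a, ha⟩ := FiniteField.exists_nonsquare hchar
  have ha0 : a ≠ 0 := by
    rintro rfl
    exact ha (IsSquare.zero)
  have hna0 : -a ≠ 0 := neg_ne_zero.mpr ha0
  obtain ⟨c, hc4, hcp, hccop⟩ := AuxPrime.exists_class p hp (-a) hna0
  have h4p : 4 * p ≠ 0 := by
    have := hpp.pos
    omega
  obtain ⟨r, -, hr, hrc⟩ := Nat.forall_exists_prime_gt_and_modEq 0 h4p hccop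
  have hr4 : r % 4 = 3 := by
    have h1 : r ≡ c [MOD 4] := hrc.of_mul_right p
    unfold Nat.ModEq at h1
    omega
  have hrp : (r : ZMod p) = -a := by
    have h1 : r ≡ c [MOD p] := hrc.of_mul_left 4
    rw [← hcp]
    exact (ZMod.natCast_eq_natCast_iff r c p).mpr h1
  have hrnep : r ≠ p := by
    rintro rfl
    apply hna0
    rw [← hrp]
    exact ZMod.natCast_self r
  have : Fact r.Prime := ⟨hr⟩
  have hr2 : r ≠ 2 := by
    rintro rfl
    omega
  -- (-r / p) = -1
  have hleg1 : legendreSym p (-(r : ℤ)) = -1 := by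
    rw [legendreSym.eq_neg_one_iff]
    have : ((-(r : ℤ) : ℤ) : ZMod p) = a := by
      push_cast
      rw [hrp, neg_neg]
    rw [this]
    exact ha
  refine ⟨r, hr, hr4, hrnep, hleg1, ?_⟩
  -- (p / r) = -1
  have hneg1r : legendreSym r (-1) = -1 := by
    rw [legendreSym.at_neg_one hr2]
    exact ZMod.χ₄_nat_three_mod_four hr4
  have hmul : legendreSym p (-(r : ℤ)) = legendreSym p (-1) * legendreSym p r := by
    rw [← legendreSym.mul]
    congr 1
    ring
  have hpr : legendreSym r p = -1 := by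
    have hpmod : p % 4 = 1 ∨ p % 4 = 3 := by
      have := hpp.eq_one_or_self_of_dvd 2
      have hodd : Odd p := hpp.odd_of_ne_two hp
      rw [Nat.odd_iff] at hodd
      omega
    rcases hpmod with h1 | h3
    · have hneg1p : legendreSym p (-1) = 1 := by
        rw [legendreSym.at_neg_one hp]
        exact ZMod.χ₄_nat_one_mod_four h1
      rw [hneg1p, one_mul] at hmul
      rw [legendreSym.quadratic_reciprocity_one_mod_four h1 hr2, ← hmul, hleg1]
    · have hneg1p : legendreSym p (-1) = -1 := by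
        rw [legendreSym.at_neg_one hp]
        exact ZMod.χ₄_nat_three_mod_four h3
      rw [hneg1p] at hmul
      have h5 : legendreSym p r = 1 := by
        rw [hleg1] at hmul
        linarith
      rw [legendreSym.quadratic_reciprocity_three_mod_four h3 hr4, h5]
  have hnegp : legendreSym r (-(p : ℤ)) = 1 := by
    have : legendreSym r (-(p : ℤ)) = legendreSym r (-1) * legendreSym r p := by
      rw [← legendreSym.mul]
      congr 1
      ring
    rw [this, hneg1r, hpr]
    norm_num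
  have hne0 : ((-(p : ℤ) : ℤ) : ZMod r) ≠ 0 := by
    intro h0
    have := (legendreSym.eq_zero_iff r (-(p : ℤ))).mpr h0
    rw [hnegp] at this
    exact one_ne_zero this
  obtain ⟨t, ht⟩ := (legendreSym.eq_one_iff r hne0).mp hnegp
  refine ⟨(t.val : ℤ), ?_⟩
  rw [← ZMod.intCast_zmod_eq_zero_iff_dvd]
  push_cast
  rw [ZMod.natCast_val, ZMod.cast_id', id, pow_two, ← ht]
  push_cast
  ring

/-- **TH1, packaged with the derived integers.** `u = (r+1)/4` and `t = (s^2+p)/r`. -/
theorem exists_aux_data (p : ℕ) [Fact p.Prime] (hp : p ≠ 2) :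
    ∃ (r : ℕ) (s u t : ℤ), r.Prime ∧ r % 4 = 3 ∧ r ≠ p ∧ legendreSym p (-(r : ℤ)) = -1 ∧
      4 * u = r + 1 ∧ (r : ℤ) * t = s ^ 2 + p ∧ 0 < u ∧ 0 < t := by
  obtain ⟨r, hr, hr4, hrp, hleg, s, t, ht⟩ := exists_aux_prime p hp
  have hpp : p.Prime := Fact.out
  have hrpos : (0 : ℤ) < r := by exact_mod_cast hr.pos
  refine ⟨r, s, ((r + 1) / 4 : ℕ), t, hr, hr4, hrp, hleg, ?_, ht.symm, ?_, ?_⟩
  · have : 4 * ((r + 1) / 4) = r + 1 := by omega
    exact_mod_cast this
  · have : 0 < (r + 1) / 4 := by omega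
    exact_mod_cast this
  · have h1 : (0 : ℤ) < s ^ 2 + p := by
      have : (0 : ℤ) < p := by exact_mod_cast hpp.pos
      positivity
    rw [ht] at h1
    exact (mul_pos_iff_of_pos_left hrpos).mp h1

end Fermat.Agent.S16.Theta
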