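import Fermat.Agent.S16.Theta.Defs
import Fermat.Agent.S16.Theta.AuxPrime

/-!
# P-EIS, LB-theta, TH1g: existence of the auxiliary data `Aux p`
-/

set_option autoImplicit false

namespace Fermat.Agent.S16.Theta

/-- **TH1g.** For every odd prime `p` the auxiliary data `Aux p` exist. -/
theorem ifaceAux : IfaceAux := by
  intro p _ hp
  have hpp : p.Prime := Fact.out
  obtain ⟨r, s, u, t, hr, hr4, hrp, hleg, hu, hrt, hupos, htpos⟩ := exists_aux_data p hp
  -- Bezout: a * p + b * r = 1
  have hcop : IsCoprime (p : ℤ) (r : ℤ) := by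
    rw [Int.isCoprime_iff_gcd_eq_one, Int.gcd_natCast_natCast]
    exact (Nat.coprime_primes hpp hr).mpr (Ne.symm hrp)
  obtain ⟨a, b, hab⟩ := hcop
  have hr' : (r : ℤ) = 4 * u - 1 := by linarith
  refine ⟨⟨u, s * a, p * t * a ^ 2 + b * (1 + p * a), hupos, ?_, ?_⟩⟩
  · rw [← hr']
    have h1 : (r : ℤ) * (p * t * a ^ 2 + b * (1 + p * a)) =
        p * ((r : ℤ) * t) * a ^ 2 + (b * r) * (1 + p * a) := by ring
    have h2 : b * (r : ℤ) = 1 - a * p := by linarith
    rw [h1, hrt, h2]
    ring
  · intro hsq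
    -- `1 - 4 u θ = -b` in `ZMod p`
    have hbr : (b : ZMod p) * (r : ZMod p) = 1 := by
      have := congrArg (fun x : ℤ => (x : ZMod p)) hab
      simp only [Int.cast_add, Int.cast_mul, Int.cast_natCast, Int.cast_one] at this
      rw [ZMod.natCast_self, mul_zero, zero_add] at this
      exact this
    have h4u : (4 : ZMod p) * (u : ZMod p) = (r : ZMod p) + 1 := by
      have := congrArg (fun x : ℤ => (x : ZMod p)) hu
      simpa using this
    have hθ : (((p * t * a ^ 2 + b * (1 + p * a) : ℤ)) : ZMod p) = (b : ZMod p) := by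
      push_cast
      rw [ZMod.natCast_self]
      ring
    have hval : 1 - 4 * (u : ZMod p) * (((p * t * a ^ 2 + b * (1 + p * a) : ℤ)) : ZMod p)
        = -(b : ZMod p) := by
      rw [hθ, h4u]
      have : ((r : ZMod p) + 1) * (b : ZMod p) = 1 + b := by
        rw [add_mul, one_mul, mul_comm, hbr]
      rw [this]
      ring
    rw [hval] at hsq
    -- then `-r = (-b) * r ^ 2` is a square
    have hnr : ¬ IsSquare (((-(r : ℤ) : ℤ)) : ZMod p) := (legendreSym.eq_neg_one_iff p).mp hleg
    apply hnr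
    have hrew : (((-(r : ℤ) : ℤ)) : ZMod p) = (-(b : ZMod p)) * ((r : ZMod p) * (r : ZMod p)) := by
      push_cast
      have : (-(b : ZMod p)) * ((r : ZMod p) * (r : ZMod p)) =
          -(((b : ZMod p) * (r : ZMod p)) * (r : ZMod p)) := by ring
      rw [this, hbr, one_mul]
    rw [hrew]
    exact hsq.mul (IsSquare.mul_self _)

end Fermat.Agent.S16.Theta
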