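import Mathlib

/-!
# P-EIS (S16), lower bound, module TH5: the orbit argument

Let `F : ℍ → ℂ` and `Φ : ZMod p → ℍ → ℂ` (`p` prime) be functions such that, for the weight-`k`
slash action of `SL(2, ℤ)`,

* `F ∣ T = F`, `F ∣ S = Φ 0`, `Φ 0 ∣ S = F`,
* `Φ b ∣ T = Φ (b + 1)`,
* `Φ b ∣ S = Φ (-b⁻¹)` for `b ≠ 0`.

Then the set `{F} ∪ {Φ b}` is permuted by `SL(2, ℤ)` exactly like `ℙ¹(𝔽_p)` (bottom rows):
`F ∣ γ = F` if `p ∣ c` and `F ∣ γ = Φ (d / c)` otherwise, for `γ = (a b; c d)`.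
In particular `F` is invariant under `Γ₀(p)`; if moreover `F` is holomorphic and `F`, `Φ b`
are bounded at `i∞`, then `F` is a modular form on `Γ₀(p)`.
-/

set_option autoImplicit false

open UpperHalfPlane ModularGroup Matrix.SpecialLinearGroup CongruenceSubgroup
open scoped ModularForm MatrixGroups Manifold

namespace Fermat.Agent.S16.Theta

noncomputable section

variable {p : ℕ} [Fact p.Prime]

/-- The function attached to the point `(c : d)` of `ℙ¹(𝔽_p)`. -/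
def orbFun (F : ℍ → ℂ) (Φ : ZMod p → ℍ → ℂ) (c d : ZMod p) : ℍ → ℂ :=
  if c = 0 then F else Φ (d / c)

theorem slash_inv_of_slash_eq {k : ℤ} {f g : ℍ → ℂ} {γ : SL(2, ℤ)} (h : f ∣[k] γ = g) :
    g ∣[k] γ⁻¹ = f := by
  rw [← h, ← SlashAction.slash_mul, mul_inv_cancel, SlashAction.slash_one]

theorem bottom_ne_zero (γ : SL(2, ℤ)) (hc : ((γ 1 0 : ℤ) : ZMod p) = 0) :
    ((γ 1 1 : ℤ) : ZMod p) ≠ 0 := by
  intro hd
  have h := γ.det_coe
  rw [Matrix.det_fin_two] at h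
  have h2 : (((γ 0 0 * γ 1 1 - γ 0 1 * γ 1 0 : ℤ)) : ZMod p) = 1 := by
    rw [h]; simp
  push_cast at h2
  rw [hc, hd] at h2
  simp at h2

theorem coe_mul_T (γ : SL(2, ℤ)) :
    ((γ * T) 1 0 = γ 1 0) ∧ ((γ * T) 1 1 = γ 1 0 + γ 1 1) := by
  have hT : ((T : SL(2, ℤ)) : Matrix (Fin 2) (Fin 2) ℤ) = !![1, 1; 0, 1] := ModularGroup.coe_T
  constructor
  · show ((γ * T : SL(2, ℤ)) : Matrix (Fin 2) (Fin 2) ℤ) 1 0 = _
    rw [Matrix.SpecialLinearGroup.coe_mul, hT]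
    simp [Matrix.mul_apply, Fin.sum_univ_two]
  · show ((γ * T : SL(2, ℤ)) : Matrix (Fin 2) (Fin 2) ℤ) 1 1 = _
    rw [Matrix.SpecialLinearGroup.coe_mul, hT]
    simp [Matrix.mul_apply, Fin.sum_univ_two]

theorem coe_mul_T_inv (γ : SL(2, ℤ)) :
    ((γ * T⁻¹) 1 0 = γ 1 0) ∧ ((γ * T⁻¹) 1 1 = γ 1 1 - γ 1 0) := by
  have hT : ((T⁻¹ : SL(2, ℤ)) : Matrix (Fin 2) (Fin 2) ℤ) = !![1, -1; 0, 1] := by
    have := ModularGroup.coe_T_zpow (-1)
    simpa using this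
  constructor
  · show ((γ * T⁻¹ : SL(2, ℤ)) : Matrix (Fin 2) (Fin 2) ℤ) 1 0 = _
    rw [Matrix.SpecialLinearGroup.coe_mul, hT]
    simp [Matrix.mul_apply, Fin.sum_univ_two]
  · show ((γ * T⁻¹ : SL(2, ℤ)) : Matrix (Fin 2) (Fin 2) ℤ) 1 1 = _
    rw [Matrix.SpecialLinearGroup.coe_mul, hT]
    simp [Matrix.mul_apply, Fin.sum_univ_two]
    ring

theorem coe_mul_S (γ : SL(2, ℤ)) :
    ((γ * S) 1 0 = γ 1 1) ∧ ((γ * S) 1 1 = -γ 1 0) := by
  have hS : ((S : SL(2, ℤ)) : Matrix (Fin 2) (Fin 2) ℤ) = !![0, -1; 1, 0] := ModularGroup.coe_S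
  constructor
  · show ((γ * S : SL(2, ℤ)) : Matrix (Fin 2) (Fin 2) ℤ) 1 0 = _
    rw [Matrix.SpecialLinearGroup.coe_mul, hS]
    simp [Matrix.mul_apply, Fin.sum_univ_two]
  · show ((γ * S : SL(2, ℤ)) : Matrix (Fin 2) (Fin 2) ℤ) 1 1 = _
    rw [Matrix.SpecialLinearGroup.coe_mul, hS]
    simp [Matrix.mul_apply, Fin.sum_univ_two]

theorem coe_S_inv : ((S⁻¹ : SL(2, ℤ)) : Matrix (Fin 2) (Fin 2) ℤ) = !![0, 1; -1, 0] := by
  rw [Matrix.SpecialLinearGroup.coe_inv, ModularGroup.coe_S, Matrix.adjugate_fin_two_of]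
  simp

theorem coe_mul_S_inv (γ : SL(2, ℤ)) :
    ((γ * S⁻¹) 1 0 = -γ 1 1) ∧ ((γ * S⁻¹) 1 1 = γ 1 0) := by
  constructor
  · show ((γ * S⁻¹ : SL(2, ℤ)) : Matrix (Fin 2) (Fin 2) ℤ) 1 0 = _
    rw [Matrix.SpecialLinearGroup.coe_mul, coe_S_inv]
    simp [Matrix.mul_apply, Fin.sum_univ_two]
  · show ((γ * S⁻¹ : SL(2, ℤ)) : Matrix (Fin 2) (Fin 2) ℤ) 1 1 = _
    rw [Matrix.SpecialLinearGroup.coe_mul, coe_S_inv]
    simp [Matrix.mul_apply, Fin.sum_univ_two]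

section

variable (k : ℤ) (F : ℍ → ℂ) (Φ : ZMod p → ℍ → ℂ)
  (hT : F ∣[k] T = F) (hS : F ∣[k] S = Φ 0) (hS0 : Φ 0 ∣[k] S = F)
  (hΦT : ∀ b, Φ b ∣[k] T = Φ (b + 1))
  (hΦS : ∀ b : ZMod p, b ≠ 0 → Φ b ∣[k] S = Φ (-b⁻¹))

include hT hΦT in
theorem orbFun_slash_T (c d : ZMod p) :
    orbFun F Φ c d ∣[k] T = orbFun F Φ c (c + d) := by
  unfold orbFun
  by_cases hc : c = 0
  · simp [hc, hT]
  · simp only [hc, if_false]
    rw [hΦT]
    congr 1
    field_simp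
    ring

include hT hΦT in
theorem orbFun_slash_T_inv (c d : ZMod p) :
    orbFun F Φ c d ∣[k] T⁻¹ = orbFun F Φ c (d - c) := by
  unfold orbFun
  by_cases hc : c = 0
  · simp only [hc, if_true]
    exact slash_inv_of_slash_eq hT
  · simp only [hc, if_false]
    apply slash_inv_of_slash_eq
    rw [hΦT]
    congr 1
    field_simp
    ring

include hS hS0 hΦS in
theorem orbFun_slash_S (c d : ZMod p) (hcd : c = 0 → d ≠ 0) :
    orbFun F Φ c d ∣[k] S = orbFun F Φ d (-c) := by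
  unfold orbFun
  by_cases hc : c = 0
  · have hd := hcd hc
    simp [hc, hd, hS]
  · by_cases hd : d = 0
    · simp [hc, hd, hS0]
    · simp only [hc, hd, if_false]
      rw [hΦS _ (div_ne_zero hd hc)]
      congr 1
      field_simp

include hS hS0 hΦS in
theorem orbFun_slash_S_inv (c d : ZMod p) (hcd : c = 0 → d ≠ 0) :
    orbFun F Φ c d ∣[k] S⁻¹ = orbFun F Φ (-d) c := by
  unfold orbFun
  by_cases hc : c = 0
  · have hd := hcd hc
    simp only [hc, if_true, neg_eq_zero, hd, if_false, zero_div]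
    exact slash_inv_of_slash_eq hS0
  · by_cases hd : d = 0
    · simp only [hc, hd, if_false, zero_div, neg_zero, if_true]
      exact slash_inv_of_slash_eq hS
    · have hnd : -d ≠ 0 := neg_ne_zero.mpr hd
      simp only [hc, hnd, if_false]
      apply slash_inv_of_slash_eq
      have h1 : c / -d ≠ 0 := div_ne_zero hc hnd
      rw [hΦS _ h1]
      congr 1
      field_simp

include hT hS hS0 hΦT hΦS in
/-- **Orbit lemma.** `F ∣ γ` is the function attached to the bottom row of `γ` in `ℙ¹(𝔽_p)`. -/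
theorem slash_eq_orbFun (γ : SL(2, ℤ)) :
    F ∣[k] γ = orbFun F Φ ((γ 1 0 : ℤ) : ZMod p) ((γ 1 1 : ℤ) : ZMod p) := by
  have hγ : γ ∈ Subgroup.closure ({S, T} : Set SL(2, ℤ)) := by
    rw [SpecialLinearGroup.SL2Z_generators]; trivial
  induction hγ using Subgroup.closure_induction_right with
  | one =>
    rw [SlashAction.slash_one]
    simp [orbFun]
  | mul_right x hx y hy ih =>
    rw [SlashAction.slash_mul, ih]
    rcases hy with rfl | hy
    · rw [orbFun_slash_S k F Φ hS hS0 hΦS _ _ (bottom_ne_zero x)]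
      obtain ⟨h1, h2⟩ := coe_mul_S x
      rw [h1, h2]
      push_cast
      rfl
    · rw [Set.mem_singleton_iff] at hy
      subst hy
      rw [orbFun_slash_T k F Φ hT hΦT]
      obtain ⟨h1, h2⟩ := coe_mul_T x
      rw [h1, h2]
      push_cast
      rfl
  | mul_inv_cancel x hx y hy ih =>
    rw [SlashAction.slash_mul, ih]
    rcases hy with rfl | hy
    · rw [orbFun_slash_S_inv k F Φ hS hS0 hΦS _ _ (bottom_ne_zero x)]
      obtain ⟨h1, h2⟩ := coe_mul_S_inv x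
      rw [h1, h2]
      push_cast
      rfl
    · rw [Set.mem_singleton_iff] at hy
      subst hy
      rw [orbFun_slash_T_inv k F Φ hT hΦT]
      obtain ⟨h1, h2⟩ := coe_mul_T_inv x
      rw [h1, h2]
      push_cast
      rfl

include hT hS hS0 hΦT hΦS in
/-- `F` is invariant under `Γ₀(p)`. -/
theorem slash_eq_self_of_mem_Gamma0 (γ : SL(2, ℤ)) (hγ : γ ∈ Gamma0 p) : F ∣[k] γ = F := by
  rw [slash_eq_orbFun k F Φ hT hS hS0 hΦT hΦS γ]
  have h0 : ((γ 1 0 : ℤ) : ZMod p) = 0 := Gamma0_mem.mp hγ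
  simp [orbFun, h0]

include hT hS hS0 hΦT hΦS in
/-- Every `SL(2, ℤ)`-translate of `F` is `F` or one of the `Φ b`. -/
theorem slash_eq_or (γ : SL(2, ℤ)) : F ∣[k] γ = F ∨ ∃ b, F ∣[k] γ = Φ b := by
  rw [slash_eq_orbFun k F Φ hT hS hS0 hΦT hΦS γ]
  unfold orbFun
  split_ifs
  · exact Or.inl rfl
  · exact Or.inr ⟨_, rfl⟩

include hT hS hS0 hΦT hΦS in
/-- **TH5 main.** Under the orbit hypotheses, a holomorphic `F` such that `F` and all `Φ b` are
bounded at `i∞` is (the underlying function of) a modular form of weight `k` on `Γ₀(p)`. -/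
theorem exists_modularForm_of_orbit (hol : MDiff F)
    (hbF : IsBoundedAtImInfty F) (hbΦ : ∀ b, IsBoundedAtImInfty (Φ b)) :
    ∃ G : ModularForm (Gamma0 p) k, (⇑G : ℍ → ℂ) = F := by
  refine ⟨{ toFun := F
            slash_action_eq' := ?_
            holo' := hol
            bdd_at_cusps' := ?_ }, rfl⟩
  · rintro _ ⟨γ, hγ, rfl⟩
    have := slash_eq_self_of_mem_Gamma0 k F Φ hT hS hS0 hΦT hΦS γ hγ
    rwa [ModularForm.SL_slash] at this
  · intro c hc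
    have hc' : IsCusp c 𝒮ℒ :=
      (Subgroup.IsArithmetic.isCusp_iff_isCusp_SL2Z _).mp hc
    rw [OnePoint.isBoundedAt_iff_forall_SL2Z hc']
    intro γ _
    rcases slash_eq_or k F Φ hT hS hS0 hΦT hΦS γ with h | ⟨b, h⟩
    · rw [h]; exact hbF
    · rw [h]; exact hbΦ b

end

end

end Fermat.Agent.S16.Theta
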