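import Mathlib
import Fermat.Agent.S16.Theta.Defs
import Fermat.Agent.S16.Theta.Orbit
import Fermat.Agent.S16.Theta.Analytic
import Fermat.Agent.S16.Theta.Lattice
import Fermat.Agent.S16.Theta.AuxGlue
import Fermat.Prelude.Thm_CongruenceSubgroup_one_mem_strictPeriods_Gamma0

/-!
# P-EIS (S16), lower bound via theta series: module TH7 (assembly)

From the `S`- and `T`-transformation of the theta vector and the Gauss sum of the discriminant
form we deduce the hypotheses of the orbit lemma (TH5) for `F = Θ`, `Φ_m = Θ ∣ S T^m`, hence `Θ`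
is a modular form of weight `2` on `Γ₀(p)` with `q`-expansion `1 + ∑ r(n) qⁿ`, `r(n)` even.
-/

set_option autoImplicit false

open Complex UpperHalfPlane ModularGroup
open scoped Real ModularForm MatrixGroups Manifold

noncomputable section

namespace Fermat.Agent.S16.Theta

namespace TH7

variable {p : ℕ} [Fact p.Prime] (D : Aux p)

/-- the standard additive character, as a complex number. -/
abbrev ψ (x : ZMod p) : ℂ := (ZMod.stdAddChar x : ℂ)

lemma psi_add (x y : ZMod p) : ψ (x + y) = ψ x * ψ y := AddChar.map_add_eq_mul _ x y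

lemma psi_zero : ψ (0 : ZMod p) = 1 := AddChar.map_zero_eq_one _

lemma p_ne_zero_complex : ((p : ℕ) : ℂ) ≠ 0 := by
  exact_mod_cast (Fact.out : p.Prime).ne_zero

lemma slash_T_apply (f : ℍ → ℂ) (z : ℍ) : (f ∣[(2 : ℤ)] T) z = f ((1 : ℝ) +ᵥ z) := by
  rw [ModularForm.SL_slash_apply, modular_T_smul]
  have : denom (T : SL(2, ℤ)) z = 1 := by
    simp [denom_apply, ModularGroup.T]
  rw [this]
  simp

lemma slash_S_apply (f : ℍ → ℂ) (z : ℍ) :
    (f ∣[(2 : ℤ)] S) z = f (S • z) * ((z : ℂ) ^ 2)⁻¹ := by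
  rw [ModularForm.SL_slash_apply, ModularGroup.denom_S]
  congr 1

lemma slash_neg_one (f : ℍ → ℂ) : f ∣[(2 : ℤ)] (-1 : SL(2, ℤ)) = f := by
  funext z
  rw [ModularForm.SL_slash_apply, ModularGroup.SL_neg_smul, one_smul]
  have : denom ((-1 : SL(2, ℤ))) z = -1 := by
    rw [ModularGroup.denom_apply]
    simp
  rw [this]
  simp

lemma slash_S_S (f : ℍ → ℂ) : (f ∣[(2 : ℤ)] S) ∣[(2 : ℤ)] S = f := by
  rw [← SlashAction.slash_mul]
  have : (S * S : SL(2, ℤ)) = -1 := by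
    ext i j
    have := congrFun (congrFun ModularGroup.S_mul_S_eq i) j
    simpa using this
  rw [this, slash_neg_one]

/-- `Θ ∣ T = Θ`. -/
lemma theta0_slash_T (hT : D.IfaceT) (hq : D.IfaceQExp) : D.theta0 ∣[(2 : ℤ)] T = D.theta0 := by
  funext z
  rw [slash_T_apply, hq.1, hT 0 0 z]
  have : D.q2 0 0 = 0 := by simp [Aux.q2]
  rw [this, AddChar.map_zero_eq_one, one_mul]

/-- `Θ ∣ S = Φ 0`. -/
lemma theta0_slash_S (hS : D.IfaceS) (hq : D.IfaceQExp) : D.theta0 ∣[(2 : ℤ)] S = D.Phi 0 := by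
  funext z
  have hz : (z : ℂ) ≠ 0 := z.ne_zero
  have hp : ((p : ℕ) : ℂ) ≠ 0 := p_ne_zero_complex
  rw [slash_S_apply, hq.1, hS 0 0 z, Aux.Phi]
  have h1 : ∀ a' b' : ZMod p, D.β2 0 0 a' b' = 0 := fun a' b' => by simp [Aux.β2]
  simp only [h1, zero_mul, AddChar.map_zero_eq_one, one_mul]
  field_simp

/-- `Φ 0 ∣ S = Θ`. -/
lemma Phi_zero_slash_S (hS : D.IfaceS) (hq : D.IfaceQExp) : D.Phi 0 ∣[(2 : ℤ)] S = D.theta0 := by
  rw [← theta0_slash_S D hS hq, slash_S_S]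

/-- `Φ m ∣ T = Φ (m + 1)`. -/
lemma Phi_slash_T (hT : D.IfaceT) (m : ZMod p) : D.Phi m ∣[(2 : ℤ)] T = D.Phi (m + 1) := by
  funext z
  rw [slash_T_apply, Aux.Phi, Aux.Phi]
  congr 1
  refine Finset.sum_congr rfl fun a _ => Finset.sum_congr rfl fun b _ => ?_
  rw [hT a b z, add_mul, one_mul, AddChar.map_add_eq_mul]
  ring

/-- completing the square in the discriminant form. -/
lemma complete_square {m : ZMod p} (hm : m ≠ 0) (a b a' b' : ZMod p) :
    m * D.q2 a b + D.β2 a b a' b' =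
      m * D.q2 (a + m⁻¹ * a') (b + m⁻¹ * b') + (-m⁻¹) * D.q2 a' b' := by
  have hmn : m * m⁻¹ = 1 := mul_inv_cancel₀ hm
  simp only [Aux.q2, Aux.β2]
  linear_combination (-(2 * (D.u : ZMod p) * a * a' + a * b' + a' * b
    + 2 * (D.θ : ZMod p) * b * b' + m⁻¹ * ((D.u : ZMod p) * a' ^ 2 + a' * b'
    + (D.θ : ZMod p) * b' ^ 2))) * hmn

/-- the twisted Gauss sum. -/
lemma twisted_gauss (hG : D.IfaceGauss) {m : ZMod p} (hm : m ≠ 0) (a' b' : ZMod p) :
    ∑ a : ZMod p, ∑ b : ZMod p, ψ (m * D.q2 a b) * ψ (D.β2 a b a' b') =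
      -(p : ℂ) * ψ ((-m⁻¹) * D.q2 a' b') := by
  have h1 : ∀ a b : ZMod p, ψ (m * D.q2 a b) * ψ (D.β2 a b a' b') =
      ψ (m * D.q2 (a + m⁻¹ * a') (b + m⁻¹ * b')) * ψ ((-m⁻¹) * D.q2 a' b') := by
    intro a b
    rw [← psi_add, ← psi_add, complete_square D hm]
  simp only [h1]
  simp only [← Finset.sum_mul]
  congr 1
  rw [← hG m hm]
  refine Fintype.sum_equiv (Equiv.addRight (m⁻¹ * a')) _ _ fun a => ?_
  refine Fintype.sum_equiv (Equiv.addRight (m⁻¹ * b')) _ _ fun b => ?_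
  simp

/-- interchange of the two double sums. -/
lemma sum_swap (f : ZMod p → ZMod p → ZMod p → ZMod p → ℂ) :
    ∑ a, ∑ b, ∑ a', ∑ b', f a b a' b' = ∑ a', ∑ b', ∑ a, ∑ b, f a b a' b' := by
  calc ∑ a, ∑ b, ∑ a', ∑ b', f a b a' b'
      = ∑ a, ∑ a', ∑ b, ∑ b', f a b a' b' :=
        Finset.sum_congr rfl fun a _ => Finset.sum_comm
    _ = ∑ a', ∑ a, ∑ b, ∑ b', f a b a' b' := Finset.sum_comm
    _ = ∑ a', ∑ a, ∑ b', ∑ b, f a b a' b' :=
        Finset.sum_congr rfl fun a' _ => Finset.sum_congr rfl fun a _ => Finset.sum_comm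
    _ = ∑ a', ∑ b', ∑ a, ∑ b, f a b a' b' :=
        Finset.sum_congr rfl fun a' _ => Finset.sum_comm

/-- `Φ m ∣ S = Φ (-1/m)` for `m ≠ 0`. -/
lemma Phi_slash_S (hS : D.IfaceS) (hG : D.IfaceGauss) {m : ZMod p} (hm : m ≠ 0) :
    D.Phi m ∣[(2 : ℤ)] S = D.Phi (-m⁻¹) := by
  funext z
  have hz : (z : ℂ) ≠ 0 := z.ne_zero
  have hp : ((p : ℕ) : ℂ) ≠ 0 := p_ne_zero_complex
  rw [slash_S_apply, Aux.Phi, Aux.Phi]
  simp only [hS _ _ z]
  have key : ∑ a : ZMod p, ∑ b : ZMod p, ψ (m * D.q2 a b) *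
      (-((z : ℂ) ^ 2 / (p : ℂ)) *
        ∑ a' : ZMod p, ∑ b' : ZMod p, ψ (D.β2 a b a' b') * D.vartheta a' b' z) =
      (z : ℂ) ^ 2 * ∑ a' : ZMod p, ∑ b' : ZMod p,
        ψ ((-m⁻¹) * D.q2 a' b') * D.vartheta a' b' z := by
    have e1 : ∀ a b : ZMod p, ψ (m * D.q2 a b) *
        (-((z : ℂ) ^ 2 / (p : ℂ)) *
          ∑ a' : ZMod p, ∑ b' : ZMod p, ψ (D.β2 a b a' b') * D.vartheta a' b' z) =
        ∑ a' : ZMod p, ∑ b' : ZMod p, -((z : ℂ) ^ 2 / (p : ℂ)) *
          ((ψ (m * D.q2 a b) * ψ (D.β2 a b a' b')) * D.vartheta a' b' z) := by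
      intro a b
      simp only [Finset.mul_sum]
      refine Finset.sum_congr rfl fun a' _ => Finset.sum_congr rfl fun b' _ => ?_
      ring
    simp only [e1]
    rw [sum_swap]
    simp only [← Finset.mul_sum, ← Finset.sum_mul, twisted_gauss D hG hm]
    rw [Finset.mul_sum, Finset.mul_sum]
    refine Finset.sum_congr rfl fun a' _ => ?_
    rw [Finset.mul_sum, Finset.mul_sum]
    refine Finset.sum_congr rfl fun b' _ => ?_
    field_simp
  rw [key]
  field_simp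

end TH7

open TH7 in
/-- **TH7.** The theta series of the lattice of `D` is a modular form of weight `2` on `Γ₀(p)`
with `q`-expansion `1 + ∑ r(n) qⁿ`, `r(n)` even. -/
theorem main_of {p : ℕ} [Fact p.Prime] (D : Aux p) (hS : D.IfaceS) (hG : D.IfaceGauss) :
    ∃ G : ModularForm (CongruenceSubgroup.Gamma0 p) 2,
      PowerSeries.coeff 0 (qExpansion 1 G) = 1 ∧
      ∀ n : ℕ, 1 ≤ n → ∃ r : ℤ, PowerSeries.coeff n (qExpansion 1 G) = 2 * (r : ℂ) := by
  have hpos := ifacePos D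
  have hint := ifaceInt D
  have hT : D.IfaceT := D.ifaceT (ifaceCong D)
  have hq : D.IfaceQExp := D.ifaceQExp hpos hint
  obtain ⟨G, hGF⟩ := exists_modularForm_of_orbit (p := p) 2 D.theta0 D.Phi
    (theta0_slash_T D hT hq) (theta0_slash_S D hS hq) (Phi_zero_slash_S D hS hq)
    (fun m => Phi_slash_T D hT m) (fun m hm => Phi_slash_S D hS hG hm)
    (D.mdifferentiable_theta0 hpos hint) (D.isBoundedAtImInfty_theta0 hpos hint)
    (fun m => D.isBoundedAtImInfty_Phi hpos m)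
  obtain ⟨-, c, hc0, hceven, hsum⟩ := hq
  have hcoeff : ∀ n : ℕ, (c n : ℂ) = PowerSeries.coeff n (qExpansion 1 G) := by
    intro n
    refine ModularFormClass.qExpansion_coeff_unique (c := fun n => (c n : ℂ)) one_pos
      (CongruenceSubgroup.one_mem_strictPeriods_Gamma0 p) (f := G) ?_ n
    intro τ
    have := hsum τ
    rw [hGF]
    exact this
  refine ⟨G, ?_, ?_⟩
  · rw [← hcoeff 0, hc0]; simp
  · intro n hn
    obtain ⟨r, hr⟩ := hceven n hn
    refine ⟨(r : ℤ), ?_⟩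
    rw [← hcoeff n, hr]
    push_cast
    ring

end Fermat.Agent.S16.Theta
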