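import Mathlib
import Fermat.Agent.S16.Iface
import Fermat.Agent.S16.Theta.Main
import Fermat.Agent.S16.Theta.Inversion
import Fermat.Agent.S16.Theta.GaussAdapt
import Fermat.Agent.S16.Theta.InvH91

/-!
# P-EIS (S16), lower bound via theta series: the final statement

For every odd prime `p` there is a modular form of weight `2` on `Γ₀(p)` whose `q`-expansion has
constant term `1` and even higher coefficients: the theta series of a maximal order of the
quaternion algebra ramified at `p` and `∞`.
-/

set_option autoImplicit false

namespace Fermat.Agent.S16.Theta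

/-- **LB-main.** -/
theorem ifaceMain : IfaceMain := by
  intro p _ hp
  obtain ⟨D⟩ := ifaceAux p hp
  exact main_of D (ifaceS_of_inv D (ifaceInv_h91 D)) (ifaceGauss_of_TH4 hp D)

/-- **LB-THETA**, in the form of the S16 skeleton. -/
theorem ifaceTheta (p : ℕ) [Fact p.Prime] (hp : p ≠ 2) : Fermat.Agent.S16.IfaceTheta p :=
  ifaceMain p hp

end Fermat.Agent.S16.Theta
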