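import Mathlib

/-!
# P-EIS, lower bound via theta series, module TH5: generators of `Γ₀(p)`

For a prime `p`, the group `Γ₀(p)` is generated by `-1`, `T`, `S T^p S⁻¹` and the elements
`S T^a S T^b S` with `a b ≡ 1 mod p` (Schreier generators for the transversal
`{1} ∪ {S T^j : 0 ≤ j < p}` of `Γ₀(p) \ SL(2, ℤ)`).

Main statements: `TH5_Gamma0_le_closure`, `TH5_closure_eq`, `TH5_induction`.
-/

set_option autoImplicit false

open ModularGroup CongruenceSubgroup Matrix.SpecialLinearGroup Subgroup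
open scoped MatrixGroups

namespace Fermat.Agent.S16.Theta

/-- the generating set of `Γ₀(p)`. -/
def TH5_gens (p : ℕ) : Set SL(2, ℤ) :=
  {-1, T, S * T ^ (p : ℤ) * S⁻¹} ∪
    {g | ∃ a b : ℤ, a * b ≡ 1 [ZMOD p] ∧ g = S * T ^ a * S * T ^ b * S}

/-- the transversal `{1} ∪ {S T^j : 0 ≤ j < p}`. -/
def TH5_R (p : ℕ) : Set SL(2, ℤ) :=
  {1} ∪ {g | ∃ j : ℕ, j < p ∧ g = S * T ^ (j : ℤ)}

theorem TH5_one_mem_R (p : ℕ) : (1 : SL(2, ℤ)) ∈ TH5_R p := Or.inl rfl

theorem TH5_mem_Gamma0_iff (p : ℕ) (g : SL(2, ℤ)) : g ∈ Gamma0 p ↔ (p : ℤ) ∣ g 1 0 := by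
  rw [Gamma0_mem, ZMod.intCast_zmod_eq_zero_iff_dvd]

/-! ### matrix entries -/

theorem TH5_ext {g h : SL(2, ℤ)} (h00 : g 0 0 = h 0 0) (h01 : g 0 1 = h 0 1)
    (h10 : g 1 0 = h 1 0) (h11 : g 1 1 = h 1 1) : g = h := by
  ext i j
  fin_cases i <;> fin_cases j <;> assumption

theorem TH5_coe_ST (j : ℤ) :
    ((S * T ^ j : SL(2, ℤ)) : Matrix (Fin 2) (Fin 2) ℤ) = !![0, -1; 1, j] := by
  rw [Matrix.SpecialLinearGroup.coe_mul, coe_T_zpow, coe_S]
  ext i k
  fin_cases i <;> fin_cases k <;> simp [Matrix.mul_apply, Fin.sum_univ_two]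

theorem TH5_coe_ST_inv (j : ℤ) :
    (((S * T ^ j : SL(2, ℤ))⁻¹ : SL(2, ℤ)) : Matrix (Fin 2) (Fin 2) ℤ) = !![j, 1; -1, 0] := by
  rw [Matrix.SpecialLinearGroup.coe_inv, TH5_coe_ST, Matrix.adjugate_fin_two_of]
  simp

/-- lower left entry of `g (S T^j)⁻¹`. -/
theorem TH5_mul_ST_inv_10 (g : SL(2, ℤ)) (j : ℤ) :
    (g * (S * T ^ j)⁻¹) 1 0 = j * g 1 0 - g 1 1 := by
  have h : ((g * (S * T ^ j)⁻¹ : SL(2, ℤ)) : Matrix (Fin 2) (Fin 2) ℤ) 1 0
      = j * g 1 0 - g 1 1 := by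
    rw [Matrix.SpecialLinearGroup.coe_mul, TH5_coe_ST_inv, Matrix.mul_apply, Fin.sum_univ_two]
    simp
    ring
  exact h

theorem TH5_det (g : SL(2, ℤ)) : g 0 0 * g 1 1 - g 0 1 * g 1 0 = 1 := by
  have := g.det_coe
  rw [Matrix.det_fin_two] at this
  exact this

/-- if `p ∣ c` then `p ∤ d`. -/
theorem TH5_not_dvd_d {p : ℕ} (hp : p.Prime) (g : SL(2, ℤ)) (hc : (p : ℤ) ∣ g 1 0) :
    ¬ (p : ℤ) ∣ g 1 1 := by
  intro hd
  have h1 : (p : ℤ) ∣ g 0 0 * g 1 1 - g 0 1 * g 1 0 :=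
    dvd_sub (Dvd.dvd.mul_left hd _) (Dvd.dvd.mul_left hc _)
  rw [TH5_det] at h1
  have h2 : (p : ℤ) = 1 ∨ (p : ℤ) = -1 := Int.isUnit_iff.mp (isUnit_of_dvd_one h1)
  have h3 := hp.two_le
  omega

/-! ### the transversal -/

theorem TH5_isComplement (p : ℕ) [Fact p.Prime] :
    IsComplement (Gamma0 p : Set SL(2, ℤ)) (TH5_R p) := by
  have hp : p.Prime := Fact.out
  have hp0 : (0 : ℤ) < p := by exact_mod_cast hp.pos
  rw [isComplement_iff_existsUnique_mul_inv_mem]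
  intro g
  -- uniqueness
  have huniq : ∀ t t' : TH5_R p, g * (t : SL(2, ℤ))⁻¹ ∈ Gamma0 p →
      g * (t' : SL(2, ℤ))⁻¹ ∈ Gamma0 p → t = t' := by
    rintro ⟨t, ht⟩ ⟨t', ht'⟩ h h'
    rw [TH5_mem_Gamma0_iff] at h h'
    apply Subtype.ext
    show t = t'
    rcases ht with ht | ⟨j, hj, rfl⟩ <;> rcases ht' with ht' | ⟨j', hj', rfl⟩
    · rw [Set.mem_singleton_iff] at ht ht'
      rw [ht, ht']
    · rw [Set.mem_singleton_iff] at ht
      subst ht
      rw [inv_one, mul_one] at h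
      rw [TH5_mul_ST_inv_10] at h'
      exfalso
      apply TH5_not_dvd_d hp g h
      have h1 : (p : ℤ) ∣ (j' : ℤ) * g 1 0 := Dvd.dvd.mul_left h _
      have := dvd_sub h1 h'
      simpa using this
    · rw [Set.mem_singleton_iff] at ht'
      subst ht'
      rw [inv_one, mul_one] at h'
      rw [TH5_mul_ST_inv_10] at h
      exfalso
      apply TH5_not_dvd_d hp g h'
      have h1 : (p : ℤ) ∣ (j : ℤ) * g 1 0 := Dvd.dvd.mul_left h' _
      have := dvd_sub h1 h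
      simpa using this
    · rw [TH5_mul_ST_inv_10] at h h'
      have h1 : (p : ℤ) ∣ ((j : ℤ) - j') * g 1 0 := by
        have := dvd_sub h h'
        have e : ((j : ℤ) * g 1 0 - g 1 1) - ((j' : ℤ) * g 1 0 - g 1 1)
            = ((j : ℤ) - j') * g 1 0 := by ring
        rwa [e] at this
      have hpz : Prime (p : ℤ) := Nat.prime_iff_prime_int.mp hp
      rcases hpz.dvd_or_dvd h1 with h2 | h2
      · have h3 : (j : ℤ) = j' := by
          obtain ⟨k, hk⟩ := h2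
          have hjj : -(p : ℤ) < (j : ℤ) - j' ∧ (j : ℤ) - j' < p := by
            constructor <;> omega
          have hk0 : k = 0 := by
            by_contra hk0
            rcases lt_or_gt_of_ne hk0 with hneg | hpos
            · have : (p : ℤ) * k ≤ (p : ℤ) * (-1) := by
                apply mul_le_mul_of_nonneg_left _ hp0.le
                omega
              omega
            · have : (p : ℤ) * 1 ≤ (p : ℤ) * k := by
                apply mul_le_mul_of_nonneg_left _ hp0.le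
                omega
              omega
          rw [hk0, mul_zero] at hk
          omega
        have h4 : j = j' := by exact_mod_cast h3
        rw [h4]
      · exfalso
        apply TH5_not_dvd_d hp g h2
        have h3 : (p : ℤ) ∣ (j : ℤ) * g 1 0 := Dvd.dvd.mul_left h2 _
        have := dvd_sub h3 h
        simpa using this
  -- existence
  have hex : ∃ t : TH5_R p, g * (t : SL(2, ℤ))⁻¹ ∈ Gamma0 p := by
    by_cases hc : (p : ℤ) ∣ g 1 0
    · refine ⟨⟨1, TH5_one_mem_R p⟩, ?_⟩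
      simp only [inv_one, mul_one]
      rw [TH5_mem_Gamma0_iff]
      exact hc
    · -- `j ≡ d c⁻¹`
      have hc' : ((g 1 0 : ℤ) : ZMod p) ≠ 0 := by
        rwa [Ne, ZMod.intCast_zmod_eq_zero_iff_dvd]
      set j : ℕ := (((g 1 1 : ℤ) : ZMod p) * ((g 1 0 : ℤ) : ZMod p)⁻¹).val with hjdef
      have hjlt : j < p := ZMod.val_lt _
      refine ⟨⟨S * T ^ (j : ℤ), Or.inr ⟨j, hjlt, rfl⟩⟩, ?_⟩
      show g * (S * T ^ (j : ℤ))⁻¹ ∈ Gamma0 p
      rw [TH5_mem_Gamma0_iff, TH5_mul_ST_inv_10, ← ZMod.intCast_zmod_eq_zero_iff_dvd]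
      push_cast
      rw [hjdef, ZMod.natCast_val, ZMod.cast_id', id, mul_assoc, inv_mul_cancel₀ hc', mul_one,
        sub_self]
  obtain ⟨t, ht⟩ := hex
  exact ⟨t, ht, fun t' ht' => huniq t' t ht' ht⟩

/-! ### the Schreier generators -/

theorem TH5_coe_STS (j : ℤ) :
    ((S * T ^ j * S : SL(2, ℤ)) : Matrix (Fin 2) (Fin 2) ℤ) = !![-1, 0; j, -1] := by
  rw [Matrix.SpecialLinearGroup.coe_mul, TH5_coe_ST, coe_S]
  ext i k
  fin_cases i <;> fin_cases k <;> simp [Matrix.mul_apply, Fin.sum_univ_two]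

theorem TH5_coe_STSTS (a b : ℤ) :
    ((S * T ^ a * S * T ^ b * S : SL(2, ℤ)) : Matrix (Fin 2) (Fin 2) ℤ)
      = !![-b, 1; a * b - 1, -a] := by
  rw [Matrix.SpecialLinearGroup.coe_mul, Matrix.SpecialLinearGroup.coe_mul, TH5_coe_STS,
    coe_T_zpow, coe_S]
  ext i k
  fin_cases i <;> fin_cases k <;> simp [Matrix.mul_apply, Fin.sum_univ_two]
  ring

theorem TH5_coe_STS_mul_ST_inv (j j' : ℤ) :
    ((S * T ^ j * S * (S * T ^ j')⁻¹ : SL(2, ℤ)) : Matrix (Fin 2) (Fin 2) ℤ)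
      = !![-j', -1; j * j' + 1, j] := by
  rw [Matrix.SpecialLinearGroup.coe_mul, TH5_coe_STS, TH5_coe_ST_inv]
  ext i k
  fin_cases i <;> fin_cases k <;> simp [Matrix.mul_apply, Fin.sum_univ_two]

/-- the key identity: `S T^j S (S T^j')⁻¹ = - (S T^j S T^(-j') S)`. -/
theorem TH5_STS_mul_ST_inv (j j' : ℤ) :
    S * T ^ j * S * (S * T ^ j')⁻¹ = -1 * (S * T ^ j * S * T ^ (-j') * S) := by
  apply Subtype.ext
  rw [TH5_coe_STS_mul_ST_inv, Matrix.SpecialLinearGroup.coe_mul,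
    Matrix.SpecialLinearGroup.coe_neg, Matrix.SpecialLinearGroup.coe_one, TH5_coe_STSTS]
  ext i k
  fin_cases i <;> fin_cases k <;> simp
  ring

theorem TH5_S_mul_S : (S * S : SL(2, ℤ)) = -1 := by
  apply Subtype.ext
  rw [Matrix.SpecialLinearGroup.coe_mul, coe_S, Matrix.SpecialLinearGroup.coe_neg,
    Matrix.SpecialLinearGroup.coe_one]
  ext i k
  fin_cases i <;> fin_cases k <;> simp [Matrix.mul_apply, Fin.sum_univ_two]

theorem TH5_S_10 : (S : SL(2, ℤ)) 1 0 = 1 := by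
  have : ((S : SL(2, ℤ)) : Matrix (Fin 2) (Fin 2) ℤ) 1 0 = 1 := by rw [coe_S]; rfl
  exact this

theorem TH5_S_11 : (S : SL(2, ℤ)) 1 1 = 0 := by
  have : ((S : SL(2, ℤ)) : Matrix (Fin 2) (Fin 2) ℤ) 1 1 = 0 := by rw [coe_S]; rfl
  exact this

theorem TH5_T_10 : (T : SL(2, ℤ)) 1 0 = 0 := by
  have : ((T : SL(2, ℤ)) : Matrix (Fin 2) (Fin 2) ℤ) 1 0 = 0 := by rw [coe_T]; rfl
  exact this

theorem TH5_T_11 : (T : SL(2, ℤ)) 1 1 = 1 := by
  have : ((T : SL(2, ℤ)) : Matrix (Fin 2) (Fin 2) ℤ) 1 1 = 1 := by rw [coe_T]; rfl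
  exact this

theorem TH5_ST_10 (j : ℤ) : (S * T ^ j : SL(2, ℤ)) 1 0 = 1 := by
  have : ((S * T ^ j : SL(2, ℤ)) : Matrix (Fin 2) (Fin 2) ℤ) 1 0 = 1 := by
    rw [TH5_coe_ST]; rfl
  exact this

theorem TH5_ST_11 (j : ℤ) : (S * T ^ j : SL(2, ℤ)) 1 1 = j := by
  have : ((S * T ^ j : SL(2, ℤ)) : Matrix (Fin 2) (Fin 2) ℤ) 1 1 = j := by
    rw [TH5_coe_ST]; rfl
  exact this

theorem TH5_STS_10 (j : ℤ) : (S * T ^ j * S : SL(2, ℤ)) 1 0 = j := by
  have : ((S * T ^ j * S : SL(2, ℤ)) : Matrix (Fin 2) (Fin 2) ℤ) 1 0 = j := by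
    rw [TH5_coe_STS]; rfl
  exact this

theorem TH5_STS_11 (j : ℤ) : (S * T ^ j * S : SL(2, ℤ)) 1 1 = -1 := by
  have : ((S * T ^ j * S : SL(2, ℤ)) : Matrix (Fin 2) (Fin 2) ℤ) 1 1 = -1 := by
    rw [TH5_coe_STS]; rfl
  exact this

theorem TH5_neg_one_mem (p : ℕ) : (-1 : SL(2, ℤ)) ∈ Subgroup.closure (TH5_gens p) :=
  Subgroup.subset_closure (Or.inl (Or.inl rfl))

theorem TH5_T_mem (p : ℕ) : (T : SL(2, ℤ)) ∈ Subgroup.closure (TH5_gens p) :=
  Subgroup.subset_closure (Or.inl (Or.inr (Or.inl rfl)))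

theorem TH5_STpS_mem (p : ℕ) : (S * T ^ (p : ℤ) * S⁻¹ : SL(2, ℤ)) ∈ Subgroup.closure (TH5_gens p) :=
  Subgroup.subset_closure (Or.inl (Or.inr (Or.inr rfl)))

theorem TH5_STSTS_mem (p : ℕ) (a b : ℤ) (hab : a * b ≡ 1 [ZMOD p]) :
    (S * T ^ a * S * T ^ b * S : SL(2, ℤ)) ∈ Subgroup.closure (TH5_gens p) :=
  Subgroup.subset_closure (Or.inr ⟨a, b, hab, rfl⟩)

theorem TH5_not_dvd_one {p : ℕ} (hp : p.Prime) : ¬ (p : ℤ) ∣ 1 := by
  intro h
  have h2 : (p : ℤ) = 1 ∨ (p : ℤ) = -1 := Int.isUnit_iff.mp (isUnit_of_dvd_one h)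
  have h3 := hp.two_le
  omega

theorem TH5_eq_zero_of_dvd {p j : ℕ} (hj : j < p) (h : (p : ℤ) ∣ (j : ℤ)) : j = 0 := by
  have h1 : p ∣ j := by exact_mod_cast h
  exact Nat.eq_zero_of_dvd_of_lt h1 hj

/-- every Schreier generator lies in the closure of `TH5_gens`. -/
theorem TH5_key (p : ℕ) [Fact p.Prime] (r s t : SL(2, ℤ)) (hr : r ∈ TH5_R p)
    (hs : s ∈ ({S, T} : Set SL(2, ℤ))) (ht : t ∈ TH5_R p)
    (hmem : r * s * t⁻¹ ∈ Gamma0 p) : r * s * t⁻¹ ∈ Subgroup.closure (TH5_gens p) := by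
  have hp : p.Prime := Fact.out
  rcases hr with hr | ⟨j, hj, rfl⟩
  · rw [Set.mem_singleton_iff] at hr
    subst hr
    rw [one_mul] at hmem ⊢
    rcases hs with hs | hs
    · -- `s = S`
      rw [hs] at hmem ⊢
      rcases ht with ht | ⟨j', hj', rfl⟩
      · rw [Set.mem_singleton_iff] at ht
        subst ht
        rw [inv_one, mul_one, TH5_mem_Gamma0_iff, TH5_S_10] at hmem
        exact absurd hmem (TH5_not_dvd_one hp)
      · rw [TH5_mem_Gamma0_iff, TH5_mul_ST_inv_10, TH5_S_10, TH5_S_11, mul_one, sub_zero] at hmem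
        have h0 := TH5_eq_zero_of_dvd hj' hmem
        subst h0
        have e : (S * (S * T ^ ((0 : ℕ) : ℤ))⁻¹ : SL(2, ℤ)) = 1 := by
          simp
        rw [e]
        exact one_mem _
    · -- `s = T`
      rw [Set.mem_singleton_iff] at hs
      rw [hs] at hmem ⊢
      rcases ht with ht | ⟨j', hj', rfl⟩
      · rw [Set.mem_singleton_iff] at ht
        subst ht
        rw [inv_one, mul_one]
        exact TH5_T_mem p
      · rw [TH5_mem_Gamma0_iff, TH5_mul_ST_inv_10, TH5_T_10, TH5_T_11, mul_zero, zero_sub,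
          dvd_neg] at hmem
        exact absurd hmem (TH5_not_dvd_one hp)
  · rcases hs with hs | hs
    · -- `r = S T^j`, `s = S`
      rw [hs] at hmem ⊢
      rcases ht with ht | ⟨j', hj', rfl⟩
      · rw [Set.mem_singleton_iff] at ht
        subst ht
        rw [inv_one, mul_one] at hmem ⊢
        rw [TH5_mem_Gamma0_iff, TH5_STS_10] at hmem
        have h0 := TH5_eq_zero_of_dvd hj hmem
        subst h0
        have e : (S * T ^ ((0 : ℕ) : ℤ) * S : SL(2, ℤ)) = -1 := by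
          rw [Nat.cast_zero, zpow_zero, mul_one, TH5_S_mul_S]
        rw [e]
        exact TH5_neg_one_mem p
      · rw [TH5_mem_Gamma0_iff, TH5_mul_ST_inv_10, TH5_STS_10, TH5_STS_11] at hmem
        rw [TH5_STS_mul_ST_inv]
        refine mul_mem (TH5_neg_one_mem p) (TH5_STSTS_mem p _ _ ?_)
        -- `j * (-j') ≡ 1 mod p`
        rw [Int.modEq_iff_dvd]
        have e : (1 : ℤ) - (j : ℤ) * -(j' : ℤ) = (j' : ℤ) * j - -1 := by ring
        rw [e]
        exact hmem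
    · -- `r = S T^j`, `s = T`
      rw [Set.mem_singleton_iff] at hs
      rw [hs] at hmem ⊢
      have e1 : (S * T ^ (j : ℤ) * T : SL(2, ℤ)) = S * T ^ ((j : ℤ) + 1) := by
        rw [zpow_add_one, mul_assoc]
      rw [e1] at hmem ⊢
      rcases ht with ht | ⟨j', hj', rfl⟩
      · rw [Set.mem_singleton_iff] at ht
        subst ht
        rw [inv_one, mul_one, TH5_mem_Gamma0_iff, TH5_ST_10] at hmem
        exact absurd hmem (TH5_not_dvd_one hp)
      · rw [TH5_mem_Gamma0_iff, TH5_mul_ST_inv_10, TH5_ST_10, TH5_ST_11, mul_one] at hmem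
        -- `p ∣ j' - (j + 1)`
        have e2 : (S * T ^ ((j : ℤ) + 1) * (S * T ^ (j' : ℤ))⁻¹ : SL(2, ℤ))
            = S * T ^ ((j : ℤ) + 1 - j') * S⁻¹ := by
          rw [mul_inv_rev, ← zpow_neg, sub_eq_add_neg, zpow_add ((T : SL(2, ℤ))) ((j : ℤ) + 1)]
          simp only [mul_assoc]
        rw [e2]
        obtain ⟨k, hk⟩ := hmem
        have hp0 : (0 : ℤ) < p := by exact_mod_cast hp.pos
        have hk' : k = 0 ∨ k = -1 := by
          have h1 : -(p : ℤ) ≤ (j' : ℤ) - ((j : ℤ) + 1) := by omega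
          have h2 : (j' : ℤ) - ((j : ℤ) + 1) < p := by omega
          rw [hk] at h1 h2
          have h3 : -1 ≤ k := by
            by_contra hcon
            push Not at hcon
            have : (p : ℤ) * k ≤ (p : ℤ) * (-2) := by
              apply mul_le_mul_of_nonneg_left _ hp0.le
              omega
            omega
          have h4 : k < 1 := by
            by_contra hcon
            push Not at hcon
            have : (p : ℤ) * 1 ≤ (p : ℤ) * k := mul_le_mul_of_nonneg_left hcon hp0.le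
            omega
          omega
        rcases hk' with rfl | rfl
        · have e3 : (j : ℤ) + 1 - j' = 0 := by omega
          rw [e3, zpow_zero, mul_one, mul_inv_cancel]
          exact one_mem _
        · have e3 : (j : ℤ) + 1 - j' = p := by
            rw [mul_neg, mul_one] at hk
            omega
          rw [e3]
          exact TH5_STpS_mem p

/-- **TH5.** `Γ₀(p)` is contained in the subgroup generated by `TH5_gens p`. -/
theorem TH5_Gamma0_le_closure (p : ℕ) [Fact p.Prime] :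
    Gamma0 p ≤ Subgroup.closure (TH5_gens p) := by
  have hR := TH5_isComplement p
  have h := closure_mul_image_eq hR (TH5_one_mem_R p) SpecialLinearGroup.SL2Z_generators
  rw [← h, closure_le]
  rintro - ⟨g, hg, rfl⟩
  obtain ⟨r, hr, s, hs, rfl⟩ := hg
  exact TH5_key p r s _ hr hs (hR.toRightFun (r * s)).2 (hR.mul_inv_toRightFun_mem (r * s))

theorem TH5_gens_subset (p : ℕ) : TH5_gens p ⊆ (Gamma0 p : Set SL(2, ℤ)) := by
  rintro g (hg | ⟨a, b, hab, rfl⟩)
  · rcases hg with rfl | rfl | rfl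
    · show (-1 : SL(2, ℤ)) ∈ Gamma0 p
      rw [TH5_mem_Gamma0_iff]
      simp
    · show T ∈ Gamma0 p
      rw [TH5_mem_Gamma0_iff, TH5_T_10]
      exact dvd_zero _
    · show S * T ^ (p : ℤ) * S⁻¹ ∈ Gamma0 p
      have e : (S * T ^ (p : ℤ) * S⁻¹ : SL(2, ℤ)) = S * T ^ (p : ℤ) * (S * T ^ (0 : ℤ))⁻¹ := by
        rw [zpow_zero, mul_one]
      rw [e, TH5_mem_Gamma0_iff, TH5_mul_ST_inv_10, TH5_ST_10, TH5_ST_11, zero_mul, zero_sub]
      exact (dvd_neg).mpr dvd_rfl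
  · show S * T ^ a * S * T ^ b * S ∈ Gamma0 p
    rw [TH5_mem_Gamma0_iff]
    have h10 : (S * T ^ a * S * T ^ b * S : SL(2, ℤ)) 1 0 = a * b - 1 := by
      have : ((S * T ^ a * S * T ^ b * S : SL(2, ℤ)) : Matrix (Fin 2) (Fin 2) ℤ) 1 0
          = a * b - 1 := by
        rw [TH5_coe_STSTS]; rfl
      exact this
    rw [h10]
    exact (Int.modEq_iff_dvd.mp hab.symm)

/-- `Γ₀(p)` is generated by `TH5_gens p`. -/
theorem TH5_closure_eq (p : ℕ) [Fact p.Prime] : Subgroup.closure (TH5_gens p) = Gamma0 p :=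
  le_antisymm ((closure_le _).mpr (TH5_gens_subset p)) (TH5_Gamma0_le_closure p)

/-- Induction principle for `Γ₀(p)`. -/
theorem TH5_induction (p : ℕ) [Fact p.Prime] (P : SL(2, ℤ) → Prop)
    (hone : P 1) (hmul : ∀ g h, P g → P h → P (g * h)) (hinv : ∀ g, P g → P g⁻¹)
    (hneg : P (-1)) (hT : P T) (hSTS : P (S * T ^ (p : ℤ) * S⁻¹))
    (hab : ∀ a b : ℤ, a * b ≡ 1 [ZMOD p] → P (S * T ^ a * S * T ^ b * S)) :
    ∀ γ ∈ Gamma0 p, P γ := by
  intro γ hγ
  have h := TH5_Gamma0_le_closure p hγ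
  clear hγ
  induction h using Subgroup.closure_induction with
  | mem x hx =>
      rcases hx with hx | ⟨a, b, hab', rfl⟩
      · rcases hx with rfl | rfl | rfl
        · exact hneg
        · exact hT
        · exact hSTS
      · exact hab a b hab'
  | one => exact hone
  | mul x y _ _ hx hy => exact hmul x y hx hy
  | inv x _ hx => exact hinv x hx

end Fermat.Agent.S16.Theta
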