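import Mathlib

/-!
# S16 lower bound (LB-theta), module TH1: the auxiliary prime

For every odd prime `p` there is a prime `r ≡ 3 mod 4`, `r ≠ p`, such that `-r` is a
quadratic non-residue modulo `p`, together with a natural number `s` with `r ∣ s ^ 2 + p`.
(Dirichlet's theorem on primes in arithmetic progressions + quadratic reciprocity.)
-/

set_option autoImplicit false

namespace Fermat.Agent.S16.Theta

open ZMod

/-- an odd prime is `1` or `3` modulo `4` -/
theorem TH1_mod_four_of_odd_prime {p : ℕ} (hp : p.Prime) (hp2 : p ≠ 2) :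
    p % 4 = 1 ∨ p % 4 = 3 := by
  have hodd : p % 2 = 1 := by
    rcases hp.eq_two_or_odd with h | h
    · exact absurd h hp2
    · exact h
  omega

/-- Dirichlet step: a prime `r > p`, `r ≡ 3 mod 4`, with `-r` a non-square modulo `p`. -/
theorem TH1_exists_prime_nonsquare (p : ℕ) [Fact p.Prime] (hp : p ≠ 2) :
    ∃ r : ℕ, r.Prime ∧ p < r ∧ r % 4 = 3 ∧ ¬ IsSquare (-(r : ZMod p)) := by
  have hpp : p.Prime := Fact.out
  -- a non-square `c` modulo `p`
  obtain ⟨c, hc⟩ : ∃ c : ZMod p, ¬ IsSquare c :=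
    FiniteField.exists_nonsquare (by rw [ringChar_zmod_n]; exact hp)
  have hc0 : c ≠ 0 := by
    rintro rfl
    exact hc ⟨0, by simp⟩
  have hcop : Nat.Coprime 4 p := by
    have h2 : Nat.Coprime 2 p := by
      rw [Nat.coprime_primes Nat.prime_two hpp]
      exact fun h => hp h.symm
    have : Nat.Coprime (2 ^ 2) p := Nat.Coprime.pow_left 2 h2
    simpa using this
  -- CRT: a class modulo `4 * p` which is `3` mod `4` and `-c` mod `p`
  obtain ⟨x, hx⟩ : ∃ x : ZMod (4 * p), ZMod.chineseRemainder hcop x = ((3 : ZMod 4), -c) :=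
    (ZMod.chineseRemainder hcop).surjective _
  have : NeZero (4 * p) := ⟨Nat.mul_ne_zero (by norm_num) hpp.ne_zero⟩
  have hxu : IsUnit x := by
    have h3 : IsUnit (3 : ZMod 4) := by decide
    have hcu : IsUnit (-c) := (neg_ne_zero.mpr hc0).isUnit
    have : IsUnit (ZMod.chineseRemainder hcop x) := by
      rw [hx]
      exact Prod.isUnit_iff.mpr ⟨h3, hcu⟩
    exact (isUnit_map_iff (ZMod.chineseRemainder hcop) x).mp this
  obtain ⟨r, hrp, hr, hrx⟩ := Nat.forall_exists_prime_gt_and_eq_mod hxu p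
  have h1 : ZMod.chineseRemainder hcop (r : ZMod (4 * p)) = ((r : ZMod 4), (r : ZMod p)) := by
    rw [show ((r : ZMod (4 * p))) = ((r : ℕ) : ZMod (4 * p)) from rfl, map_natCast]
    rfl
  rw [hrx, hx] at h1
  have h4 : (r : ZMod 4) = 3 := (congrArg Prod.fst h1).symm
  have hpc : (r : ZMod p) = -c := (congrArg Prod.snd h1).symm
  refine ⟨r, hr, hrp, ?_, ?_⟩
  · have : ((r : ZMod 4)).val = (3 : ZMod 4).val := by rw [h4]
    rw [ZMod.val_natCast] at this
    have h3 : (3 : ZMod 4).val = 3 := by decide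
    rw [h3] at this
    exact this
  · rw [hpc, neg_neg]
    exact hc

/-- **TH1.**  The auxiliary prime `r` and the square root `s` of `-p` modulo `r`. -/
theorem TH1_exists_aux (p : ℕ) [Fact p.Prime] (hp : p ≠ 2) :
    ∃ r s : ℕ, r.Prime ∧ r % 4 = 3 ∧ r ≠ p ∧ legendreSym p (-(r : ℤ)) = -1 ∧
      (r : ℤ) ∣ (s : ℤ) ^ 2 + p := by
  have hpp : p.Prime := Fact.out
  obtain ⟨r, hr, hpr, hr4, hns⟩ := TH1_exists_prime_nonsquare p hp
  have : Fact r.Prime := ⟨hr⟩
  have hrp : r ≠ p := (Nat.ne_of_lt hpr).symm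
  have hr2 : r ≠ 2 := by
    rintro rfl
    norm_num at hr4
  -- `(-r / p) = -1`
  have hleg : legendreSym p (-(r : ℤ)) = -1 := by
    rw [legendreSym.eq_neg_one_iff]
    simpa using hns
  -- `(r / p)` in terms of `p mod 4`
  have hmul : legendreSym p (-(r : ℤ)) = legendreSym p (-1) * legendreSym p r := by
    rw [← legendreSym.mul]
    congr 1
    ring
  -- `(p / r) = -1`
  have hpr_leg : legendreSym r p = -1 := by
    rcases TH1_mod_four_of_odd_prime hpp hp with h1 | h3
    · -- `p ≡ 1 mod 4`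
      have hm1 : legendreSym p (-1) = 1 := by
        rw [legendreSym.at_neg_one hp, ZMod.χ₄_nat_one_mod_four h1]
      have hrp' : legendreSym p r = -1 := by
        rw [hmul, hm1, one_mul] at hleg
        exact hleg
      rw [legendreSym.quadratic_reciprocity_one_mod_four h1 hr2]
      exact hrp'
    · -- `p ≡ 3 mod 4`
      have hm1 : legendreSym p (-1) = -1 := by
        rw [legendreSym.at_neg_one hp, ZMod.χ₄_nat_three_mod_four h3]
      have hrp' : legendreSym p r = 1 := by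
        rw [hmul, hm1] at hleg
        linarith
      rw [legendreSym.quadratic_reciprocity_three_mod_four h3 hr4, hrp']
  -- `(-p / r) = 1`
  have hmr : legendreSym r (-(p : ℤ)) = 1 := by
    have hm1 : legendreSym r (-1) = -1 := by
      rw [legendreSym.at_neg_one hr2, ZMod.χ₄_nat_three_mod_four hr4]
    have : legendreSym r (-(p : ℤ)) = legendreSym r (-1) * legendreSym r p := by
      rw [← legendreSym.mul]
      congr 1
      ring
    rw [this, hm1, hpr_leg]
    norm_num
  have hp0 : ((-(p : ℤ) : ℤ) : ZMod r) ≠ 0 := by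
    intro h
    have h' : ((p : ℕ) : ZMod r) = 0 := by
      have : (-(p : ZMod r)) = 0 := by simpa using h
      simpa using this
    rw [ZMod.natCast_eq_zero_iff] at h'
    rcases (Nat.dvd_prime hpp).mp h' with h1 | h1
    · exact hr.one_lt.ne' h1
    · exact hrp h1
  obtain ⟨y, hy⟩ := (legendreSym.eq_one_iff r hp0).mp hmr
  refine ⟨r, y.val, hr, hr4, hrp, hleg, ?_⟩
  rw [← ZMod.intCast_zmod_eq_zero_iff_dvd]
  push_cast
  rw [ZMod.natCast_zmod_val y]
  have : ((-(p : ℤ) : ℤ) : ZMod r) = -(p : ZMod r) := by push_cast; rfl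
  rw [this] at hy
  rw [pow_two, ← hy]
  ring

/-- **TH1, packaged for the lattice.**  With `u = (r + 1) / 4` and `t = (s ^ 2 + p) / r` the
divisions are exact. -/
theorem TH1_exists_aux_data (p : ℕ) [Fact p.Prime] (hp : p ≠ 2) :
    ∃ r s u t : ℕ, r.Prime ∧ r % 4 = 3 ∧ r ≠ p ∧ legendreSym p (-(r : ℤ)) = -1 ∧
      r + 1 = 4 * u ∧ s ^ 2 + p = r * t := by
  obtain ⟨r, s, hr, hr4, hrp, hleg, hdvd⟩ := TH1_exists_aux p hp
  have hdvd' : r ∣ s ^ 2 + p := by
    have : ((r : ℕ) : ℤ) ∣ ((s ^ 2 + p : ℕ) : ℤ) := by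
      push_cast
      exact hdvd
    exact Int.natCast_dvd_natCast.mp this
  obtain ⟨t, ht⟩ := hdvd'
  refine ⟨r, s, (r + 1) / 4, t, hr, hr4, hrp, hleg, ?_, ht⟩
  omega

/-- **TH1**, in the exact shape of the `eis_tasks` signature. -/
theorem TH1_exists_aux_prime (p : ℕ) [Fact p.Prime] (hp : p ≠ 2) :
    ∃ r : ℕ, r.Prime ∧ r % 4 = 3 ∧ r ≠ p ∧ legendreSym p (-(r : ℤ)) = -1 ∧
      ∃ s : ℤ, (r : ℤ) ∣ s ^ 2 + p := by
  obtain ⟨r, s, hr, hr4, hrp, hleg, hdvd⟩ := TH1_exists_aux p hp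
  exact ⟨r, hr, hr4, hrp, hleg, (s : ℤ), hdvd⟩

end Fermat.Agent.S16.Theta
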