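import Fermat.Agent.S16.ThetaInv
import Fermat.Agent.S16.Theta.InvDefs
import Fermat.Agent.S16.Theta.Lattice

/-!
# P-EIS (S16), lower bound via theta series: module TH2m, theta inversion for the lattice

We deduce `Aux.IfaceInv` from the general theta inversion formula `TI97_main` (module TH3a,
`Fermat/Agent/S16/ThetaInv.lean`) applied to `A = gramInv`, `B = gram`, after the unimodular
change of variables `x = V n` in the dual sum.  The algebra is:

* `V * W = 1` over `ℤ` and `gram * gramInv = 1` over `ℝ` (using `(4u - 1) θ = p σ² + 1`);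
* `xᵀ gram x = 2 Q(x)`, `det gram = p²`;
* `gramInv (V n) = (n₀, n₁, n₂/p, n₃/p)`, hence `(V n)ᵀ gramInv (V n) = 2 Q(dualVec n)`;
* `((-i z)^(1/2))⁴ = -z²`.
-/

set_option autoImplicit false
set_option linter.unusedSimpArgs false
set_option linter.unusedTactic false

open Complex UpperHalfPlane
open scoped Real

noncomputable section

namespace Fermat.Agent.S16.Theta

namespace Aux

variable {p : ℕ} (D : Aux p)

lemma INV97_rel_real : (4 * (D.u : ℝ) - 1) * (D.θ : ℝ) = (p : ℝ) * (D.σ : ℝ) ^ 2 + 1 := by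
  have := congrArg (fun t : ℤ => (t : ℝ)) D.rel
  push_cast at this
  exact this

lemma INV97_matV_mul_matW : D.matV * D.matW = 1 := by
  have hrel := D.rel
  ext i j
  fin_cases i <;> fin_cases j <;>
    simp only [matV, matW, Matrix.mul_apply, Fin.sum_univ_four, Matrix.of_apply,
      Matrix.cons_val', Matrix.cons_val_zero, Matrix.cons_val_one, Matrix.cons_val,
      Matrix.one_apply_eq, Fin.zero_eta, Fin.mk_one, Fin.reduceFinMk, ne_eq,
      not_false_eq_true, Matrix.one_apply_ne, Fin.isValue, Fin.reduceEq] <;>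
    first
    | ring1
    | linear_combination (-2 * D.u) * hrel
    | linear_combination (4 * D.u) * hrel
    | linear_combination (-2 : ℤ) * hrel

lemma INV97_matW_mul_matV : D.matW * D.matV = 1 :=
  mul_eq_one_comm.mp D.INV97_matV_mul_matW

/-- The unimodular change of variables `n ↦ V n` on `ℤ⁴`. -/
def INV97_equiv : (Fin 4 → ℤ) ≃ (Fin 4 → ℤ) where
  toFun n := D.matV.mulVec n
  invFun m := D.matW.mulVec m
  left_inv n := by
    simp only [Matrix.mulVec_mulVec, INV97_matW_mul_matV, Matrix.one_mulVec]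
  right_inv m := by
    simp only [Matrix.mulVec_mulVec, INV97_matV_mul_matW, Matrix.one_mulVec]

lemma INV97_equiv_apply (n : Fin 4 → ℤ) (i : Fin 4) :
    D.INV97_equiv n i = D.matV i 0 * n 0 + D.matV i 1 * n 1 + D.matV i 2 * n 2
      + D.matV i 3 * n 3 := by
  show D.matV.mulVec n i = _
  simp only [Matrix.mulVec, dotProduct, Fin.sum_univ_four]

lemma INV97_gramInv_mulVec (n : Fin 4 → ℤ) (i : Fin 4) :
    ∑ j, D.gramInv i j * ((D.INV97_equiv n j : ℤ) : ℝ) = dualVec (p := p) n i := by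
  have hrel := D.INV97_rel_real
  have hp' : (p : ℝ) ≠ 0 := Nat.cast_ne_zero.mpr D.TH2_p_ne_zero
  have hq : (p : ℝ) * (p : ℝ)⁻¹ = 1 := mul_inv_cancel₀ hp'
  fin_cases i
  · simp only [INV97_equiv_apply, gramInv, matV, dualVec, Fin.sum_univ_four, Matrix.of_apply,
      Matrix.cons_val', Matrix.cons_val_zero, Matrix.cons_val_one, Matrix.cons_val,
      Fin.zero_eta, Fin.mk_one, Fin.reduceFinMk, Fin.isValue, div_eq_mul_inv]
    push_cast
    linear_combination (-2 * (D.u : ℝ) * (n 1 : ℝ)) * hrel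
  · simp only [INV97_equiv_apply, gramInv, matV, dualVec, Fin.sum_univ_four, Matrix.of_apply,
      Matrix.cons_val', Matrix.cons_val_zero, Matrix.cons_val_one, Matrix.cons_val,
      Fin.zero_eta, Fin.mk_one, Fin.reduceFinMk, Fin.isValue, div_eq_mul_inv]
    push_cast
    linear_combination (4 * (D.u : ℝ) * (n 1 : ℝ)) * hrel
  · simp only [INV97_equiv_apply, gramInv, matV, dualVec, Fin.sum_univ_four, Matrix.of_apply,
      Matrix.cons_val', Matrix.cons_val_zero, Matrix.cons_val_one, Matrix.cons_val,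
      Fin.zero_eta, Fin.mk_one, Fin.reduceFinMk, Fin.isValue, div_eq_mul_inv]
    push_cast
    linear_combination (-2 * (p : ℝ)⁻¹ * (n 3 : ℝ)) * hrel
      + (-((4 * (D.u : ℝ) - 1) * D.σ * n 1 + 2 * (D.σ : ℝ) ^ 2 * n 3)) * hq
  · simp only [INV97_equiv_apply, gramInv, matV, dualVec, Fin.sum_univ_four, Matrix.of_apply,
      Matrix.cons_val', Matrix.cons_val_zero, Matrix.cons_val_one, Matrix.cons_val,
      Fin.zero_eta, Fin.mk_one, Fin.reduceFinMk, Fin.isValue, div_eq_mul_inv]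
    push_cast
    linear_combination (4 * (D.u : ℝ) * (p : ℝ)⁻¹ * (n 3 : ℝ)) * hrel
      + (2 * (D.u : ℝ) * (4 * D.u - 1) * D.σ * n 1 + 4 * (D.u : ℝ) * (D.σ : ℝ) ^ 2 * n 3) * hq

lemma INV97_qf_gramInv (n : Fin 4 → ℤ) :
    TI97_qf D.gramInv (fun i => ((D.INV97_equiv n i : ℤ) : ℝ)) = 2 * D.Q (dualVec (p := p) n) := by
  have hp' : (p : ℝ) ≠ 0 := Nat.cast_ne_zero.mpr D.TH2_p_ne_zero
  have h1 : TI97_qf D.gramInv (fun i => ((D.INV97_equiv n i : ℤ) : ℝ)) =
      ∑ i, ((D.INV97_equiv n i : ℤ) : ℝ) * dualVec (p := p) n i := by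
    unfold TI97_qf
    refine Finset.sum_congr rfl fun i _ => ?_
    rw [← D.INV97_gramInv_mulVec n i, Finset.mul_sum]
    exact Finset.sum_congr rfl fun j _ => by ring
  rw [h1]
  simp only [INV97_equiv_apply, matV, dualVec, Q, form, Fin.sum_univ_four, Matrix.of_apply,
      Matrix.cons_val', Matrix.cons_val_zero, Matrix.cons_val_one, Matrix.cons_val,
      Fin.zero_eta, Fin.mk_one, Fin.reduceFinMk, Fin.isValue]
  push_cast
  field_simp
  ring

lemma INV97_pair (n : Fin 4 → ℤ) (k : Fin 4 → ℝ) :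
    ∑ i, ((D.INV97_equiv n i : ℤ) : ℝ) * k i = D.pairV n k := by
  simp only [INV97_equiv_apply, matV, pairV, Fin.sum_univ_four, Matrix.of_apply,
      Matrix.cons_val', Matrix.cons_val_zero, Matrix.cons_val_one, Matrix.cons_val,
      Fin.zero_eta, Fin.mk_one, Fin.reduceFinMk, Fin.isValue]
  push_cast
  ring


lemma INV97_det_gram : D.gram.det = (p : ℝ) ^ 2 := by
  have hrel := D.INV97_rel_real
  rw [Matrix.det_succ_row_zero]
  simp [Fin.sum_univ_succ, Matrix.det_fin_three, gram, Fin.succAbove, Matrix.submatrix]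
  linear_combination (4 * (D.u : ℝ) * (p : ℝ) ^ 2) * hrel

lemma INV97_qf_gram (v : Fin 4 → ℝ) : TI97_qf D.gram v = 2 * D.Q v := by
  simp only [TI97_qf, gram, Q, form, Fin.sum_univ_four, Matrix.of_apply,
      Matrix.cons_val', Matrix.cons_val_zero, Matrix.cons_val_one, Matrix.cons_val,
      Fin.isValue]
  ring

lemma INV97_gram_symm (i j : Fin 4) : D.gram i j = D.gram j i := by
  fin_cases i <;> fin_cases j <;> simp [gram]

lemma INV97_isPD_gram : TI97_IsPD D.gram :=
  ⟨D.INV97_gram_symm, fun x hx => by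
    rw [INV97_qf_gram]
    have := D.TH2_Q_pos x hx
    linarith⟩

lemma INV97_gram_mul_gramInv : D.gram * D.gramInv = 1 := by
  have hrel := D.INV97_rel_real
  have hp' : (p : ℝ) ≠ 0 := Nat.cast_ne_zero.mpr D.TH2_p_ne_zero
  have hq : (p : ℝ) * (p : ℝ)⁻¹ = 1 := mul_inv_cancel₀ hp'
  ext i j
  fin_cases i <;> fin_cases j <;>
    simp only [gram, gramInv, Matrix.mul_apply, Fin.sum_univ_four, Matrix.of_apply,
      Matrix.cons_val', Matrix.cons_val_zero, Matrix.cons_val_one, Matrix.cons_val,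
      Matrix.one_apply_eq, Fin.zero_eta, Fin.mk_one, Fin.reduceFinMk, ne_eq,
      not_false_eq_true, Matrix.one_apply_ne, Fin.isValue, Fin.reduceEq, div_eq_mul_inv] <;>
    first
    | ring1
    | linear_combination (-2 * (D.u : ℝ)) * hrel
    | linear_combination (4 * (D.u : ℝ)) * hrel
    | linear_combination ((1 - 4 * (D.u : ℝ)) * D.σ) * hq
    | linear_combination (2 * (D.u : ℝ) * (4 * D.u - 1) * D.σ) * hq
    | linear_combination (1 : ℝ) * hq
    | linear_combination (0 : ℝ) * hq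
    | linear_combination (-2 : ℝ) * hrel + (2 + 2 * (D.θ : ℝ) * (1 - 4 * D.u)) * hq
    | linear_combination (4 * (D.u : ℝ)) * hrel + (-(4 * (D.u : ℝ) - 1) + 4 * D.θ * D.u * (4 * D.u - 1)) * hq

lemma INV97_gramInv_mul_gram : D.gramInv * D.gram = 1 :=
  mul_eq_one_comm.mp D.INV97_gram_mul_gramInv

lemma INV97_isPD_gramInv : TI97_IsPD D.gramInv :=
  TI97_isPD_inv D.gram D.gramInv D.INV97_isPD_gram D.INV97_gram_mul_gramInv

lemma INV97_det_gramInv : D.gramInv.det = ((p : ℝ)⁻¹) ^ 2 := by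
  have hp' : (p : ℝ) ≠ 0 := Nat.cast_ne_zero.mpr D.TH2_p_ne_zero
  have h := congrArg Matrix.det D.INV97_gram_mul_gramInv
  rw [Matrix.det_mul, Matrix.det_one, INV97_det_gram] at h
  field_simp
  linear_combination h

lemma INV97_sqrt_det_gramInv : Real.sqrt D.gramInv.det = (p : ℝ)⁻¹ := by
  rw [INV97_det_gramInv]
  exact Real.sqrt_sq (inv_nonneg.mpr (Nat.cast_nonneg p))

lemma INV97_const {z : ℂ} (hz : z ≠ 0) :
    TI97_const 4 D.gramInv z = -((p : ℂ) / z ^ 2) := by
  have hp' : (p : ℂ) ≠ 0 := Nat.cast_ne_zero.mpr D.TH2_p_ne_zero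
  unfold TI97_const
  rw [INV97_sqrt_det_gramInv]
  have h2 : ((-Complex.I * z) ^ (1 / 2 : ℂ)) ^ 2 = -Complex.I * z := by
    have h := Complex.cpow_nat_inv_pow (-Complex.I * z) (n := 2) (by norm_num)
    rw [show (((2 : ℕ) : ℂ)⁻¹) = (1 / 2 : ℂ) by norm_num] at h
    exact h
  have h4 : ((-Complex.I * z) ^ (1 / 2 : ℂ)) ^ 4 = -(z ^ 2) := by
    have : ((-Complex.I * z) ^ (1 / 2 : ℂ)) ^ 4 =
        (((-Complex.I * z) ^ (1 / 2 : ℂ)) ^ 2) ^ 2 := by ring
    rw [this, h2]
    ring_nf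
    rw [Complex.I_sq]
    ring
  rw [h4]
  push_cast
  field_simp

lemma INV97_term_eq (k : Fin 4 → ℝ) (z : ℂ) (n : Fin 4 → ℤ) :
    TI97_term D.gramInv z (fun i => (k i : ℂ)) (D.INV97_equiv n) = D.dualTerm k z n := by
  unfold TI97_term dualTerm
  rw [TI97_qf_cast, INV97_qf_gramInv]
  have hp : (∑ i, ((D.INV97_equiv n i : ℤ) : ℂ) * (k i : ℂ)) = (D.pairV n k : ℂ) := by
    rw [← INV97_pair]
    push_cast
    rfl
  rw [hp]
  congr 1
  push_cast
  ring

lemma INV97_dual_eq (k : Fin 4 → ℝ) (z : ℂ) (x : Fin 4 → ℤ) :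
    TI97_dual D.gram z (fun i => (k i : ℂ)) x =
      h19th_term (fun x : Fin 4 → ℤ => D.Q fun i => (x i : ℝ) + k i) x ((-z)⁻¹) := by
  unfold TI97_dual h19th_term
  have h : (∑ i, ∑ j, (D.gram i j : ℂ) * ((x i : ℂ) + (k i : ℂ)) * ((x j : ℂ) + (k j : ℂ))) =
      ((TI97_qf D.gram (fun i => (x i : ℝ) + k i) : ℝ) : ℂ) := by
    unfold TI97_qf
    push_cast
    rfl
  rw [h, INV97_qf_gram]
  congr 1
  push_cast
  rw [inv_neg]
  ring

end Aux

/-- **TH2m.** Theta inversion for the lattice of `D` with real characteristics. -/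
theorem ifaceInv {p : ℕ} (D : Aux p) : D.IfaceInv := by
  intro k z
  have hz : 0 < (z : ℂ).im := z.im_pos
  have hz0 : (z : ℂ) ≠ 0 := UpperHalfPlane.ne_zero z
  have hp' : (p : ℂ) ≠ 0 := Nat.cast_ne_zero.mpr D.TH2_p_ne_zero
  have hsum : Summable (D.dualTerm k (z : ℂ)) := by
    have h := TI97_summable_term D.gramInv D.INV97_isPD_gramInv hz (fun i => (k i : ℂ))
    have h2 := D.INV97_equiv.summable_iff.mpr h
    exact h2.congr fun n => D.INV97_term_eq k z n
  refine ⟨hsum, ?_⟩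
  have hmain := TI97_main 4 D.gramInv D.gram D.INV97_isPD_gramInv D.INV97_gramInv_mul_gram
    (z : ℂ) hz (fun i => (k i : ℂ))
  have hL : ∑' x, TI97_term D.gramInv (z : ℂ) (fun i => (k i : ℂ)) x =
      ∑' n, D.dualTerm k (z : ℂ) n := by
    rw [← D.INV97_equiv.tsum_eq]
    exact tsum_congr fun n => D.INV97_term_eq k z n
  have hR : ∑' y, TI97_dual D.gram (z : ℂ) (fun i => (k i : ℂ)) y =
      h19th_theta (fun x : Fin 4 → ℤ => D.Q fun i => (x i : ℝ) + k i) (ModularGroup.S • z) := by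
    unfold h19th_theta
    refine tsum_congr fun x => ?_
    rw [D.INV97_dual_eq k z x, UpperHalfPlane.modular_S_smul]
  rw [hL, hR, D.INV97_const hz0] at hmain
  rw [hmain]
  field_simp

end Fermat.Agent.S16.Theta
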